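import Fermat.Agent.LT.T6.H288.HypSpec

/-!
# Row LT, tower T6, leaf T6.12c `DiagReduceC` (helper888), OFF-MAIN

`diagReduceC888 : Fermat.Agent.LT.T6.H288.DiagReduceC`  (sub-spec of helper288, registry row 917).

`γ ∈ GL₂(K)` regular with an eigenvalue in `K`, `N δ` conjugate to `γ` in `GL₂(K')`:
then `γ` is conjugate to `diag(t₁, t₂)`, `t₁ ≠ t₂`, and `δ` is `s`-conjugate to `diag(d₁, d₂)`
with `N d_j = t_j`.

Proof.  (1) explicit diagonalisation of a `2 × 2` matrix with two distinct eigenvalues in `K`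
(three cases: `b ≠ 0`, `c ≠ 0`, diagonal).  (2) `N(x⁻¹ δ s(x)) = x⁻¹ N(δ) sˡ(x)`, so after an
`s`-conjugation `N δ' = D = diag(t₁, t₂)`.  (3) `δ' s(N δ') = N δ' sˡ(δ')`, so `δ'` commutes with `D`
and is diagonal.  (4) the norm of a diagonal matrix is the diagonal matrix of the norms.
Mathlib + `T6/Spec.lean` + `T6/H288/HypSpec.lean` only.
-/

set_option autoImplicit false

open scoped Matrix

noncomputable section

namespace Fermat.Agent.LT.T6.H888

open Fermat.Agent.LT.T6 Fermat.Agent.LT.T6.H288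

/-! ## Twisted norms in a group with an endomorphism -/

section Grp

variable {Γ : Type} [Group Γ] (s : Γ →* Γ)

/-- `N_n(x⁻¹ δ s(x)) = x⁻¹ N_n(δ) sⁿ(x)`. -/
theorem twN_twConj888 (x δ : Γ) (n : ℕ) :
    twN s n (x⁻¹ * δ * s x) = x⁻¹ * twN s n δ * (s^[n]) x := by
  induction n with
  | zero => simp [twN]
  | succ n ih =>
    simp only [twN, ih, map_mul, map_inv, Function.iterate_succ_apply']
    group

/-- `δ s(N_n δ) = N_n(δ) sⁿ(δ)`. -/
theorem twN_mul_iterate888 (δ : Γ) (n : ℕ) :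
    δ * s (twN s n δ) = twN s n δ * (s^[n]) δ := by
  induction n with
  | zero => simp [twN]
  | succ n ih =>
    have h1 : twN s (n + 1) δ = δ * s (twN s n δ) := rfl
    rw [h1, ih, map_mul, Function.iterate_succ_apply', ← mul_assoc, ih]

end Grp

/-! ## Iterates of `glAut` -/

section Aut

variable {R : Type} [CommRing R]

theorem glAut_apply888 (s : R ≃+* R) (g : GL (Fin 2) R) (a b : Fin 2) :
    ((glAut s g : GL (Fin 2) R) : Matrix (Fin 2) (Fin 2) R) a b
      = s ((g : Matrix (Fin 2) (Fin 2) R) a b) := by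
  simp [glAut, Matrix.GeneralLinearGroup.map_apply]

theorem glAut_iterate_apply888 (s : R ≃+* R) (n : ℕ) (g : GL (Fin 2) R) (a b : Fin 2) :
    ((((glAut s)^[n]) g : GL (Fin 2) R) : Matrix (Fin 2) (Fin 2) R) a b
      = (s ^ n) ((g : Matrix (Fin 2) (Fin 2) R) a b) := by
  induction n with
  | zero => simp
  | succ n ih =>
    rw [Function.iterate_succ_apply', glAut_apply888, ih, pow_succ', RingAut.mul_apply]

theorem glAut_iterate_eq_self888 (s : R ≃+* R) (n : ℕ) (h : ∀ y : R, (s ^ n) y = y)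
    (g : GL (Fin 2) R) : ((glAut s)^[n]) g = g := by
  apply Matrix.GeneralLinearGroup.ext
  intro a b
  rw [glAut_iterate_apply888, h]

end Aut

/-! ## The norm of a diagonal matrix -/

section Diag

variable {k' : Type} [Field k']

theorem twNorm_diag888 (s : k' ≃+* k') (d₁ d₂ : k') (δ₀ : GL (Fin 2) k')
    (hδ₀ : (δ₀ : Matrix (Fin 2) (Fin 2) k') = !![d₁, 0; 0, d₂]) (n : ℕ) :
    ((twNorm s n δ₀ : GL (Fin 2) k') : Matrix (Fin 2) (Fin 2) k')
      = !![fNorm s n d₁, 0; 0, fNorm s n d₂] := by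
  induction n with
  | zero =>
    have h0 : twNorm s 0 δ₀ = 1 := rfl
    rw [h0]
    ext a b
    fin_cases a <;> fin_cases b <;> simp [fNorm]
  | succ n ih =>
    have h1 : twNorm s (n + 1) δ₀ = δ₀ * glAut s (twNorm s n δ₀) := rfl
    rw [h1, Matrix.GeneralLinearGroup.coe_mul, hδ₀]
    ext a b
    fin_cases a <;> fin_cases b <;>
      simp [Matrix.mul_apply, Fin.sum_univ_two, glAut_apply888, ih, fNorm]

end Diag

/-! ## Diagonalisation of a regular `2 × 2` matrix with an eigenvalue in `K` -/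

section Diagonalise

variable {K : Type} [Field K]

theorem mul_eig_b888 (a b c d t₁ t₂ : K) (hs : t₁ + t₂ = a + d) (hp : t₁ * t₂ = a * d - b * c) :
    (!![a, b; c, d] : Matrix (Fin 2) (Fin 2) K) * !![b, b; t₁ - a, t₂ - a]
      = !![b, b; t₁ - a, t₂ - a] * !![t₁, 0; 0, t₂] := by
  have e00 : a * b + b * (t₁ - a) = b * t₁ + b * 0 := by ring
  have e01 : a * b + b * (t₂ - a) = b * 0 + b * t₂ := by ring
  have e10 : c * b + d * (t₁ - a) = (t₁ - a) * t₁ + (t₂ - a) * 0 := by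
    linear_combination hp - t₁ * hs
  have e11 : c * b + d * (t₂ - a) = (t₁ - a) * 0 + (t₂ - a) * t₂ := by
    linear_combination hp - t₂ * hs
  rw [Matrix.mul_fin_two, Matrix.mul_fin_two, e00, e01, e10, e11]

theorem mul_eig_c888 (a b c d t₁ t₂ : K) (hs : t₁ + t₂ = a + d) (hp : t₁ * t₂ = a * d - b * c) :
    (!![a, b; c, d] : Matrix (Fin 2) (Fin 2) K) * !![t₁ - d, t₂ - d; c, c]
      = !![t₁ - d, t₂ - d; c, c] * !![t₁, 0; 0, t₂] := by
  have e00 : a * (t₁ - d) + b * c = (t₁ - d) * t₁ + (t₂ - d) * 0 := by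
    linear_combination hp - t₁ * hs
  have e01 : a * (t₂ - d) + b * c = (t₁ - d) * 0 + (t₂ - d) * t₂ := by
    linear_combination hp - t₂ * hs
  have e10 : c * (t₁ - d) + d * c = c * t₁ + c * 0 := by ring
  have e11 : c * (t₂ - d) + d * c = c * 0 + c * t₂ := by ring
  rw [Matrix.mul_fin_two, Matrix.mul_fin_two, e00, e01, e10, e11]

/-- If `γ P = P γ₀` in `GL₂(K)` then `γ` and `γ₀` are conjugate. -/
theorem isConj_of_mul_eq888 (γ γ₀ P : GL (Fin 2) K) (h : γ * P = P * γ₀) : IsConj γ γ₀ := by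
  rw [isConj_iff]
  refine ⟨P⁻¹, ?_⟩
  rw [inv_inv, mul_assoc, h, ← mul_assoc, inv_mul_cancel, one_mul]

theorem det_ne_zero888 (γ : GL (Fin 2) K) : (γ : Matrix (Fin 2) (Fin 2) K).det ≠ 0 :=
  ((Matrix.isUnit_iff_isUnit_det _).mp γ.isUnit).ne_zero

/-- A matrix with the shape `!![a, b; c, d]`, two distinct eigenvalues `t₁, t₂ ∈ K` and an
invertible matrix `P` of eigenvectors. -/
theorem isConj_diag_of_eig888 (γ : GL (Fin 2) K) (a b c d t₁ t₂ : K)
    (hγ : (γ : Matrix (Fin 2) (Fin 2) K) = !![a, b; c, d])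
    (hp : t₁ * t₂ = a * d - b * c)
    (P : Matrix (Fin 2) (Fin 2) K) (hP : P.det ≠ 0)
    (hmul : (!![a, b; c, d] : Matrix (Fin 2) (Fin 2) K) * P = P * !![t₁, 0; 0, t₂]) :
    ∃ γ₀ : GL (Fin 2) K, (γ₀ : Matrix (Fin 2) (Fin 2) K) = !![t₁, 0; 0, t₂] ∧ IsConj γ γ₀ := by
  have hdet : a * d - b * c ≠ 0 := by
    have h := det_ne_zero888 γ
    rw [hγ, Matrix.det_fin_two] at h
    simpa using h
  have hD : (!![t₁, 0; 0, t₂] : Matrix (Fin 2) (Fin 2) K).det ≠ 0 := by
    rw [Matrix.det_fin_two]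
    simpa [hp] using hdet
  refine ⟨Matrix.GeneralLinearGroup.mkOfDetNeZero _ hD, rfl, ?_⟩
  apply isConj_of_mul_eq888 γ _ (Matrix.GeneralLinearGroup.mkOfDetNeZero P hP)
  apply Units.ext
  change (γ : Matrix (Fin 2) (Fin 2) K) * P = P * !![t₁, 0; 0, t₂]
  rw [hγ]
  exact hmul

theorem diag_of_reg888 (γ : GL (Fin 2) K) (hreg : IsReg γ) (x : K)
    (hx : x ^ 2 - (γ : Matrix (Fin 2) (Fin 2) K).trace * x
      + (γ : Matrix (Fin 2) (Fin 2) K).det = 0) :
    ∃ (t₁ t₂ : K) (γ₀ : GL (Fin 2) K), t₁ ≠ t₂ ∧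
      (γ₀ : Matrix (Fin 2) (Fin 2) K) = !![t₁, 0; 0, t₂] ∧ IsConj γ γ₀ := by
  obtain ⟨a, b, c, d, hγ⟩ : ∃ a b c d : K, (γ : Matrix (Fin 2) (Fin 2) K) = !![a, b; c, d] :=
    ⟨_, _, _, _, Matrix.eta_fin_two _⟩
  have hdisc : (a + d) ^ 2 - 4 * (a * d - b * c) ≠ 0 := by
    have h := hreg.ne_zero
    unfold disc at h
    rw [hγ, Matrix.trace_fin_two, Matrix.det_fin_two] at h
    simpa using h
  have hx' : x ^ 2 - (a + d) * x + (a * d - b * c) = 0 := by
    rw [hγ, Matrix.trace_fin_two, Matrix.det_fin_two] at hx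
    simpa using hx
  by_cases hb : b = 0
  · by_cases hc : c = 0
    · -- diagonal case
      refine ⟨a, d, γ, ?_, ?_, IsConj.refl γ⟩
      · intro h
        apply hdisc
        rw [hb, h]
        ring
      · rw [hγ, hb, hc]
    · -- `c ≠ 0`
      have hs : x + (a + d - x) = a + d := by ring
      have hp : x * (a + d - x) = a * d - b * c := by linear_combination -hx'
      have hne : x ≠ a + d - x := by
        intro h
        apply hdisc
        linear_combination (-4 : K) * hx' + (2 * x - a - d) * h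
      have hP : (!![x - d, (a + d - x) - d; c, c] : Matrix (Fin 2) (Fin 2) K).det ≠ 0 := by
        rw [Matrix.det_fin_two]
        have : (x - d) * c - ((a + d - x) - d) * c = c * (x - (a + d - x)) := by ring
        simp only [Matrix.of_apply, Matrix.cons_val', Matrix.cons_val_zero, Matrix.cons_val_one,
          Matrix.cons_val_fin_one]
        rw [this]
        exact mul_ne_zero hc (sub_ne_zero.mpr hne)
      obtain ⟨γ₀, hγ₀, hconj⟩ := isConj_diag_of_eig888 γ a b c d x (a + d - x) hγ hp _ hP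
        (mul_eig_c888 a b c d x (a + d - x) hs hp)
      exact ⟨x, a + d - x, γ₀, hne, hγ₀, hconj⟩
  · -- `b ≠ 0`
    have hs : x + (a + d - x) = a + d := by ring
    have hp : x * (a + d - x) = a * d - b * c := by linear_combination -hx'
    have hne : x ≠ a + d - x := by
      intro h
      apply hdisc
      linear_combination (-4 : K) * hx' + (2 * x - a - d) * h
    have hP : (!![b, b; x - a, (a + d - x) - a] : Matrix (Fin 2) (Fin 2) K).det ≠ 0 := by
      rw [Matrix.det_fin_two]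
      have : b * ((a + d - x) - a) - b * (x - a) = b * ((a + d - x) - x) := by ring
      simp only [Matrix.of_apply, Matrix.cons_val', Matrix.cons_val_zero, Matrix.cons_val_one,
        Matrix.cons_val_fin_one]
      rw [this]
      exact mul_ne_zero hb (sub_ne_zero.mpr hne.symm)
    obtain ⟨γ₀, hγ₀, hconj⟩ := isConj_diag_of_eig888 γ a b c d x (a + d - x) hγ hp _ hP
      (mul_eig_b888 a b c d x (a + d - x) hs hp)
    exact ⟨x, a + d - x, γ₀, hne, hγ₀, hconj⟩

end Diagonalise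

/-! ## The leaf -/

theorem diagReduceC888 : DiagReduceC := by
  intro K K' _ _ l i s hcyc δ γ hreg hroot hconj
  obtain ⟨x, hx⟩ := hroot
  obtain ⟨t₁, t₂, γ₀, hne, hγ₀, hconjγ⟩ := diag_of_reg888 γ hreg x hx
  set D : GL (Fin 2) K' := Matrix.GeneralLinearGroup.map i γ₀ with hD
  have h1 : IsConj (twNorm s l δ) D :=
    hconj.trans ((Matrix.GeneralLinearGroup.map i).map_isConj hconjγ)
  obtain ⟨c, hc⟩ := isConj_iff.mp h1
  have hDm : (D : Matrix (Fin 2) (Fin 2) K') = !![i t₁, 0; 0, i t₂] := by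
    ext a b
    rw [hD, Matrix.GeneralLinearGroup.map_apply, hγ₀]
    fin_cases a <;> fin_cases b <;> simp
  have hsD : glAut s D = D := by
    apply Matrix.GeneralLinearGroup.ext
    intro a b
    rw [glAut_apply888, hDm]
    fin_cases a <;> fin_cases b <;> simp [hcyc.fix_i]
  set δ' : GL (Fin 2) K' := (c⁻¹)⁻¹ * δ * glAut s c⁻¹ with hδ'
  have hl : ∀ g : GL (Fin 2) K', ((glAut s)^[l]) g = g :=
    glAut_iterate_eq_self888 s l hcyc.order
  have hN : twN (glAut s) l δ' = D := by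
    rw [hδ', twN_twConj888, hl, inv_inv]
    exact hc
  have hcomm : δ' * D = D * δ' := by
    have h := twN_mul_iterate888 (glAut s) δ' l
    rw [hl, hN, hsD] at h
    exact h
  have hit : i t₁ ≠ i t₂ := fun h => hne (i.injective h)
  have hcm : (δ' : Matrix (Fin 2) (Fin 2) K') * !![i t₁, 0; 0, i t₂]
      = !![i t₁, 0; 0, i t₂] * (δ' : Matrix (Fin 2) (Fin 2) K') := by
    rw [← hDm, ← Matrix.GeneralLinearGroup.coe_mul, ← Matrix.GeneralLinearGroup.coe_mul, hcomm]
  have h01 : (δ' : Matrix (Fin 2) (Fin 2) K') 0 1 = 0 := by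
    have h := congrFun (congrFun hcm 0) 1
    simp only [Matrix.mul_apply, Fin.sum_univ_two, Matrix.of_apply, Matrix.cons_val',
      Matrix.cons_val_zero, Matrix.cons_val_one, Matrix.cons_val_fin_one, mul_zero, zero_add,
      zero_mul, add_zero] at h
    have h2 : (δ' : Matrix (Fin 2) (Fin 2) K') 0 1 * (i t₂ - i t₁) = 0 := by
      linear_combination h
    rcases mul_eq_zero.mp h2 with h3 | h3
    · exact h3
    · exact absurd (sub_eq_zero.mp h3).symm hit
  have h10 : (δ' : Matrix (Fin 2) (Fin 2) K') 1 0 = 0 := by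
    have h := congrFun (congrFun hcm 1) 0
    simp only [Matrix.mul_apply, Fin.sum_univ_two, Matrix.of_apply, Matrix.cons_val',
      Matrix.cons_val_zero, Matrix.cons_val_one, Matrix.cons_val_fin_one, mul_zero, zero_add,
      zero_mul, add_zero] at h
    have h2 : (δ' : Matrix (Fin 2) (Fin 2) K') 1 0 * (i t₁ - i t₂) = 0 := by
      linear_combination h
    rcases mul_eq_zero.mp h2 with h3 | h3
    · exact h3
    · exact absurd (sub_eq_zero.mp h3) hit
  have hδm : (δ' : Matrix (Fin 2) (Fin 2) K')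
      = !![(δ' : Matrix (Fin 2) (Fin 2) K') 0 0, 0; 0, (δ' : Matrix (Fin 2) (Fin 2) K') 1 1] := by
    conv_lhs => rw [Matrix.eta_fin_two (δ' : Matrix (Fin 2) (Fin 2) K')]
    rw [h01, h10]
  have hdet : (δ' : Matrix (Fin 2) (Fin 2) K') 0 0 * (δ' : Matrix (Fin 2) (Fin 2) K') 1 1 ≠ 0 := by
    have h := det_ne_zero888 δ'
    rw [Matrix.det_fin_two, h01, h10] at h
    simpa using h
  have hNm := twNorm_diag888 s _ _ δ' hδm l
  have hNm' : (!![fNorm s l ((δ' : Matrix (Fin 2) (Fin 2) K') 0 0), 0;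
      0, fNorm s l ((δ' : Matrix (Fin 2) (Fin 2) K') 1 1)] : Matrix (Fin 2) (Fin 2) K')
      = !![i t₁, 0; 0, i t₂] := by
    rw [← hNm, ← hDm]
    exact congrArg _ hN
  refine ⟨(δ' : Matrix (Fin 2) (Fin 2) K') 0 0, (δ' : Matrix (Fin 2) (Fin 2) K') 1 1, t₁, t₂,
    δ', γ₀, hne, left_ne_zero_of_mul hdet, right_ne_zero_of_mul hdet, hδm, hγ₀, ?_, ?_,
    ⟨c⁻¹, hδ'⟩, hconjγ⟩
  · have h := congrFun (congrFun hNm' 0) 0
    simpa using h
  · have h := congrFun (congrFun hNm' 1) 1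
    simpa using h

end Fermat.Agent.LT.T6.H888

end
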