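import Mathlib
import Fermat.Agent.LT.T6.SpecArch

/-!
# Row LT, tower T6, leaf T6.22 `ArchClassC` (helper888, sub-architect): SPEC of the cut

OFF-MAIN.  Definitions and Props only.  `LT/T6/SpecArch.lean` (helper22) is NOT touched.

## Route (no smoothing of the eigenfunction, no ODE theory: one-variable calculus only)

Write `A_n(t) = sinh t` (`n = 0`), `sinh t (1 + cosh t)` (`n = ±1`) for the radial weight,
`(G g)(t) = ∫₀ᵗ A(r)⁻¹ ∫₀ʳ A(q) g(q) dq dr` for the Green operator of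
`L = ∂² + (A'/A) ∂` with zero initial data, and
`(T f)(t, u) = (1/2π) ∫₀^{2π} K_n(t, u, φ) f(d(t, u, φ)) dφ`,
`cosh d = cosh t cosh u + sinh t sinh u cos φ`, `K₀ = 1`, `K_{±1} = 1 + tanh(t/2) tanh(u/2) cos φ`,
for the generalised translation.  Then:

* (A1, A2) the normalised eigenvalue function `μ(t) = m(t) / nrm(t)` (`nrm = 1` resp.
  `cosh(t/2)`), `μ(0) = 1`, is continuous on `[0, ∞)` and satisfies the PRODUCT FORMULA
  `T μ (t, u) = μ(t) μ(u)`;
* (B) DARBOUX: `T (G g)(t, u) = (G g)(t) + G (T g (t, ·))(u)` for continuous `g`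
  (the translation commutes with `L`);
* (C) hence `w = G μ` satisfies `w(t) + μ(t) w(u) = w(u) + μ(u) w(t)`, and with (Inj)
  `μ = 1 + c · G μ` for a constant `c` (VOLTERRA equation);
* (D) the normalised spherical function `sphRad n s (cosh t) / nrm(t)` satisfies the same
  Volterra equation with `c = s² - 1/4` resp. `s² - 1`;
* (E) the continuous solution of the Volterra equation is unique.

All identities were checked numerically (weights `0` and `1`, complex `s`).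
-/

set_option autoImplicit false

open MeasureTheory

noncomputable section

namespace Fermat.Agent.LT.T6.H888

open Fermat.Agent.LT.T6

/-- The hypotheses of `ArchClassC` on `(n, e, m)`, bundled. -/
structure IsCircEigen888 (n : ℤ) (e : GL (Fin 2) ℝ → ℂ) (m : ℝ → ℂ) : Prop where
  cont : Continuous e
  ne : ∃ g, e g ≠ 0
  wt : ∀ k g : GL (Fin 2) ℝ, InSO2 k → e (g * k) = wtChar n k * e g
  scal : ∀ (z g : GL (Fin 2) ℝ) (r : ℝ), 0 < r →
    (z : Matrix (Fin 2) (Fin 2) ℝ) = Matrix.diagonal (fun _ => r) → e (g * z) = e g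
  eig : ∀ t : ℝ, 0 < t → ∀ Y : ℝ → GL (Fin 2) ℝ,
    (∀ θ : ℝ, ((Y θ : GL (Fin 2) ℝ) : Matrix (Fin 2) (Fin 2) ℝ)
      = !![Real.cos θ, -Real.sin θ; Real.sin θ, Real.cos θ]
        * !![Real.exp (t / 2), 0; 0, Real.exp (-(t / 2))]
        * !![Real.cos θ, Real.sin θ; -Real.sin θ, Real.cos θ]) →
    ∀ x : GL (Fin 2) ℝ,
      (∫ θ in (0 : ℝ)..(2 * Real.pi), e (x * Y θ)) = ((2 * Real.pi : ℝ) : ℂ) * m t * e x

/-- The radial weight: `sinh t` for `n = 0`, `sinh t (1 + cosh t)` for `n = ±1`. -/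
def wtA888 (n : ℤ) (t : ℝ) : ℝ :=
  if n = 0 then Real.sinh t else Real.sinh t * (1 + Real.cosh t)

/-- The normalisation: `1` for `n = 0`, `cosh (t/2)` for `n = ±1`. -/
def nrm888 (n : ℤ) (t : ℝ) : ℝ := if n = 0 then 1 else Real.cosh (t / 2)

/-- The eigenvalue of `L` on the spherical function of parameter `s`. -/
def lam888 (n : ℤ) (s : ℂ) : ℂ := if n = 0 then s ^ 2 - 1 / 4 else s ^ 2 - 1

/-- `cosh` of the third side: `cosh t cosh u + sinh t sinh u cos φ`. -/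
def rho888 (t u φ : ℝ) : ℝ :=
  Real.cosh t * Real.cosh u + Real.sinh t * Real.sinh u * Real.cos φ

/-- The kernel of the product formula. -/
def kerW888 (n : ℤ) (t u φ : ℝ) : ℝ :=
  if n = 0 then 1 else 1 + Real.tanh (t / 2) * Real.tanh (u / 2) * Real.cos φ

/-- The generalised translation. -/
def gT888 (n : ℤ) (f : ℝ → ℂ) (t u : ℝ) : ℂ :=
  ((1 / (2 * Real.pi) : ℝ) : ℂ) * ∫ φ in (0 : ℝ)..(2 * Real.pi),
    ((kerW888 n t u φ : ℝ) : ℂ) * f (Real.arcosh (rho888 t u φ))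

/-- The Green operator of `L = ∂² + (A'/A) ∂` with zero initial data at `0`. -/
def gL888 (n : ℤ) (g : ℝ → ℂ) (t : ℝ) : ℂ :=
  ∫ r in (0 : ℝ)..t, (((wtA888 n r)⁻¹ : ℝ) : ℂ) *
    ∫ q in (0 : ℝ)..r, ((wtA888 n q : ℝ) : ℂ) * g q

/-- The normalised eigenvalue function, extended by `1` to `t ≤ 0`. -/
def mtOf888 (n : ℤ) (m : ℝ → ℂ) (t : ℝ) : ℂ :=
  if 0 < t then m t / ((nrm888 n t : ℝ) : ℂ) else 1

/-! ## The leaves -/

/-- (A1) The normalised eigenvalue function is continuous on `[0, ∞)`. -/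
def MtContC888 : Prop :=
  ∀ n : ℤ, n = 0 ∨ n = 1 ∨ n = -1 →
    ∀ (e : GL (Fin 2) ℝ → ℂ) (m : ℝ → ℂ), IsCircEigen888 n e m →
      ContinuousOn (mtOf888 n m) (Set.Ici 0)

/-- (A2) The product formula of the normalised eigenvalue function. -/
def ProdFormC888 : Prop :=
  ∀ n : ℤ, n = 0 ∨ n = 1 ∨ n = -1 →
    ∀ (e : GL (Fin 2) ℝ → ℂ) (m : ℝ → ℂ), IsCircEigen888 n e m →
      ∀ t u : ℝ, 0 < t → 0 < u →
        gT888 n (mtOf888 n m) t u = mtOf888 n m t * mtOf888 n m u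

/-- (B) Darboux: the generalised translation commutes with the Green operator. -/
def DarbouxC888 : Prop :=
  ∀ n : ℤ, n = 0 ∨ n = 1 ∨ n = -1 →
    ∀ g : ℝ → ℂ, ContinuousOn g (Set.Ici 0) →
      ∀ t u : ℝ, 0 < t → 0 < u →
        gT888 n (gL888 n g) t u = gL888 n g t + gL888 n (fun q => gT888 n g t q) u

/-- (Inj) The Green operator does not kill a continuous function with `f 0 = 1`. -/
def GLInjC888 : Prop :=
  ∀ n : ℤ, n = 0 ∨ n = 1 ∨ n = -1 →
    ∀ f : ℝ → ℂ, ContinuousOn f (Set.Ici 0) → f 0 = 1 →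
      ∃ t : ℝ, 0 < t ∧ gL888 n f t ≠ 0

/-- (D) The normalised spherical functions solve the Volterra equation. -/
def SphVolterraC888 : Prop :=
  ∀ n : ℤ, n = 0 ∨ n = 1 ∨ n = -1 →
    ∀ s : ℂ, ∃ ps : ℝ → ℂ, ContinuousOn ps (Set.Ici 0) ∧
      (∀ t : ℝ, 0 < t → sphRad n s (Real.cosh t) = ((nrm888 n t : ℝ) : ℂ) * ps t) ∧
      ∀ t : ℝ, 0 ≤ t → ps t = 1 + lam888 n s * gL888 n ps t

/-- (E) Uniqueness of the continuous solution of the Volterra equation. -/
def VolterraUniqC888 : Prop :=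
  ∀ n : ℤ, n = 0 ∨ n = 1 ∨ n = -1 →
    ∀ (c : ℂ) (f g : ℝ → ℂ), ContinuousOn f (Set.Ici 0) → ContinuousOn g (Set.Ici 0) →
      (∀ t : ℝ, 0 ≤ t → f t = 1 + c * gL888 n f t) →
      (∀ t : ℝ, 0 ≤ t → g t = 1 + c * gL888 n g t) →
      ∀ t : ℝ, 0 ≤ t → f t = g t

end Fermat.Agent.LT.T6.H888

end
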