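import Mathlib
import Fermat.Agent.LT.T6.H888.ArchClassSpec

/-!
# Row LT, tower T6, leaf T6.22 `ArchClassC` (helper888): the TOP of the cut, PROVED

`archClassC888 : MtContC888 → ProdFormC888 → DarbouxC888 → GLInjC888 → SphVolterraC888 →
  VolterraUniqC888 → ArchClassC`.
-/

set_option autoImplicit false

open MeasureTheory

noncomputable section

namespace Fermat.Agent.LT.T6.H888

open Fermat.Agent.LT.T6

theorem rho_symm888 (t u φ : ℝ) : rho888 t u φ = rho888 u t φ := by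
  unfold rho888; ring

theorem kerW_symm888 (n : ℤ) (t u φ : ℝ) : kerW888 n t u φ = kerW888 n u t φ := by
  unfold kerW888; split_ifs <;> ring

theorem gT_symm888 (n : ℤ) (f : ℝ → ℂ) (t u : ℝ) : gT888 n f t u = gT888 n f u t := by
  unfold gT888
  simp only [rho_symm888 t u, kerW_symm888 n t u]

theorem wtA_zero888 (n : ℤ) : wtA888 n 0 = 0 := by
  unfold wtA888; split_ifs <;> simp

theorem gL_zero888 (n : ℤ) (g : ℝ → ℂ) : gL888 n g 0 = 0 := by
  unfold gL888; simp

theorem nrm_pos888 (n : ℤ) (t : ℝ) : 0 < nrm888 n t := by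
  unfold nrm888; split_ifs
  · exact one_pos
  · exact Real.cosh_pos _

/-- Pulling a constant out of `gL888` when `h q = c * g q` for `q > 0` (the weight vanishes
at `0`). -/
theorem gL_congr_mul888 (n : ℤ) (h g : ℝ → ℂ) (c : ℂ) (u : ℝ) (hu : 0 ≤ u)
    (hq : ∀ q, 0 < q → h q = c * g q) : gL888 n h u = c * gL888 n g u := by
  unfold gL888
  rw [← intervalIntegral.integral_const_mul]
  apply intervalIntegral.integral_congr
  intro r hr
  rw [Set.uIcc_of_le hu] at hr
  simp only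
  have h2 : (∫ q in (0:ℝ)..r, ((wtA888 n q : ℝ) : ℂ) * h q)
      = c * ∫ q in (0:ℝ)..r, ((wtA888 n q : ℝ) : ℂ) * g q := by
    rw [← intervalIntegral.integral_const_mul]
    apply intervalIntegral.integral_congr
    intro q hq'
    rw [Set.uIcc_of_le hr.1] at hq'
    simp only
    rcases eq_or_lt_of_le hq'.1 with h0 | h0
    · rw [← h0, wtA_zero888]; simp
    · rw [hq q h0]; ring
  rw [h2]; ring

/-- **The top of the cut of T6.22.** -/
theorem archClassC888 (hA1 : MtContC888) (hA2 : ProdFormC888) (hB : DarbouxC888)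
    (hI : GLInjC888) (hD : SphVolterraC888) (hE : VolterraUniqC888) : ArchClassC := by
  intro n hn e m hcont hne hwt hscal heig
  have hE0 : IsCircEigen888 n e m := ⟨hcont, hne, hwt, hscal, heig⟩
  have hfc : ContinuousOn (mtOf888 n m) (Set.Ici 0) := hA1 n hn e m hE0
  have hf0 : mtOf888 n m 0 = 1 := by simp [mtOf888]
  have hPF : ∀ t u, 0 < t → 0 < u →
      gT888 n (mtOf888 n m) t u = mtOf888 n m t * mtOf888 n m u := hA2 n hn e m hE0
  have h1 : ∀ t u, 0 < t → 0 < u →
      gT888 n (gL888 n (mtOf888 n m)) t u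
        = gL888 n (mtOf888 n m) t + mtOf888 n m t * gL888 n (mtOf888 n m) u := by
    intro t u ht hu
    rw [hB n hn (mtOf888 n m) hfc t u ht hu]
    congr 1
    exact gL_congr_mul888 n _ (mtOf888 n m) (mtOf888 n m t) u hu.le
      (fun q hq => hPF t q ht hq)
  obtain ⟨u₀, hu₀, hwu₀⟩ := hI n hn (mtOf888 n m) hfc hf0
  have hV : ∀ t, 0 ≤ t → mtOf888 n m t
      = 1 + ((mtOf888 n m u₀ - 1) / gL888 n (mtOf888 n m) u₀) * gL888 n (mtOf888 n m) t := by
    intro t ht
    rcases eq_or_lt_of_le ht with h0 | h0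
    · rw [← h0, hf0, gL_zero888]; ring
    · have e1 := h1 t u₀ h0 hu₀
      have e2 := h1 u₀ t hu₀ h0
      rw [gT_symm888] at e2
      have e3 := e1.symm.trans e2
      field_simp
      linear_combination e3
  obtain ⟨s, hs⟩ : ∃ s : ℂ,
      lam888 n s = (mtOf888 n m u₀ - 1) / gL888 n (mtOf888 n m) u₀ := by
    unfold lam888
    split_ifs
    · obtain ⟨s, hs⟩ := IsAlgClosed.exists_pow_nat_eq
        ((mtOf888 n m u₀ - 1) / gL888 n (mtOf888 n m) u₀ + 1 / 4) (n := 2) (by norm_num)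
      exact ⟨s, by rw [hs]; ring⟩
    · obtain ⟨s, hs⟩ := IsAlgClosed.exists_pow_nat_eq
        ((mtOf888 n m u₀ - 1) / gL888 n (mtOf888 n m) u₀ + 1) (n := 2) (by norm_num)
      exact ⟨s, by rw [hs]; ring⟩
  obtain ⟨ps, hpsc, hps1, hps2⟩ := hD n hn s
  rw [hs] at hps2
  have hEq := hE n hn _ (mtOf888 n m) ps hfc hpsc hV hps2
  refine ⟨s, fun t ht => ?_⟩
  rw [hps1 t ht, ← hEq t ht.le]
  have h3 : mtOf888 n m t = m t / ((nrm888 n t : ℝ) : ℂ) := by simp [mtOf888, ht]
  rw [h3]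
  have hne' : ((nrm888 n t : ℝ) : ℂ) ≠ 0 := by exact_mod_cast (nrm_pos888 n t).ne'
  field_simp

end Fermat.Agent.LT.T6.H888

end
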