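import Mathlib
import Fermat.Agent.LT.T6.H888.ArchClassTop

/-!
# Row LT, tower T6, leaf T6.22 (helper888): basic facts on the Green operator `gL888`
-/

set_option autoImplicit false

open MeasureTheory Set

noncomputable section

namespace Fermat.Agent.LT.T6.H888

theorem wtA_cont888 (n : ℤ) : Continuous (wtA888 n) := by
  by_cases h : n = 0
  · have : wtA888 n = fun t => Real.sinh t := by funext t; simp [wtA888, h]
    rw [this]; fun_prop
  · have : wtA888 n = fun t => Real.sinh t * (1 + Real.cosh t) := by funext t; simp [wtA888, h]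
    rw [this]; fun_prop

theorem wtA_pos888 (n : ℤ) {t : ℝ} (ht : 0 < t) : 0 < wtA888 n t := by
  unfold wtA888; split_ifs
  · exact Real.sinh_pos_iff.mpr ht
  · exact mul_pos (Real.sinh_pos_iff.mpr ht) (by positivity)

theorem wtA_nonneg888 (n : ℤ) {t : ℝ} (ht : 0 ≤ t) : 0 ≤ wtA888 n t := by
  rcases eq_or_lt_of_le ht with h | h
  · rw [← h, wtA_zero888]
  · exact (wtA_pos888 n h).le

theorem wtA_mono888 (n : ℤ) {q r : ℝ} (hq : 0 ≤ q) (hqr : q ≤ r) :
    wtA888 n q ≤ wtA888 n r := by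
  unfold wtA888; split_ifs
  · exact Real.sinh_le_sinh.mpr hqr
  · have h1 : Real.cosh q ≤ Real.cosh r :=
      Real.cosh_le_cosh.mpr (by rw [abs_of_nonneg hq, abs_of_nonneg (hq.trans hqr)]; exact hqr)
    exact mul_le_mul (Real.sinh_le_sinh.mpr hqr) (by linarith) (by positivity)
      (Real.sinh_nonneg_iff.mpr (hq.trans hqr))

/-- The inner integral of the Green operator. -/
def gLin888 (n : ℤ) (g : ℝ → ℂ) (r : ℝ) : ℂ :=
  ∫ q in (0 : ℝ)..r, ((wtA888 n q : ℝ) : ℂ) * g q

/-- The integrand of the outer integral of the Green operator. -/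
def gLker888 (n : ℤ) (g : ℝ → ℂ) (r : ℝ) : ℂ :=
  (((wtA888 n r)⁻¹ : ℝ) : ℂ) * gLin888 n g r

theorem gL_eq888 (n : ℤ) (g : ℝ → ℂ) (t : ℝ) :
    gL888 n g t = ∫ r in (0 : ℝ)..t, gLker888 n g r := rfl

theorem gLin_bound888 (n : ℤ) (g : ℝ → ℂ) {r C : ℝ} (hr : 0 < r)
    (hC : ∀ q ∈ Ioc (0 : ℝ) r, ‖g q‖ ≤ C) : ‖gLin888 n g r‖ ≤ wtA888 n r * C * r := by
  have hC0 : 0 ≤ C := (norm_nonneg _).trans (hC r ⟨hr, le_refl _⟩)
  have h1 : ∀ q ∈ Set.uIoc (0 : ℝ) r, ‖((wtA888 n q : ℝ) : ℂ) * g q‖ ≤ wtA888 n r * C := by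
    intro q hq
    rw [uIoc_of_le hr.le] at hq
    rw [norm_mul, Complex.norm_real, Real.norm_eq_abs, abs_of_nonneg (wtA_nonneg888 n hq.1.le)]
    exact mul_le_mul (wtA_mono888 n hq.1.le hq.2) (hC q hq) (norm_nonneg _)
      (wtA_nonneg888 n hr.le)
  have h2 := intervalIntegral.norm_integral_le_of_norm_le_const h1
  rw [sub_zero, abs_of_pos hr] at h2
  exact h2

theorem gLker_bound888 (n : ℤ) (g : ℝ → ℂ) {r C : ℝ} (hr : 0 < r)
    (hC : ∀ q ∈ Ioc (0 : ℝ) r, ‖g q‖ ≤ C) : ‖gLker888 n g r‖ ≤ C * r := by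
  have hA := wtA_pos888 n hr
  unfold gLker888
  rw [norm_mul, Complex.norm_real, Real.norm_eq_abs, abs_of_pos (inv_pos.mpr hA)]
  calc (wtA888 n r)⁻¹ * ‖gLin888 n g r‖
      ≤ (wtA888 n r)⁻¹ * (wtA888 n r * C * r) :=
        mul_le_mul_of_nonneg_left (gLin_bound888 n g hr hC) (inv_pos.mpr hA).le
    _ = C * r := by field_simp

theorem gLin_cont888 (n : ℤ) {g : ℝ → ℂ} (hg : Continuous g) : Continuous (gLin888 n g) := by
  unfold gLin888
  apply intervalIntegral.continuous_primitive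
  intro a b
  exact (Continuous.intervalIntegrable
    ((Complex.continuous_ofReal.comp (wtA_cont888 n)).mul hg) a b)

theorem gLker_contOn888 (n : ℤ) {g : ℝ → ℂ} (hg : Continuous g) :
    ContinuousOn (gLker888 n g) (Ioi 0) := by
  unfold gLker888
  apply ContinuousOn.mul _ (gLin_cont888 n hg).continuousOn
  apply Complex.continuous_ofReal.comp_continuousOn
  apply ContinuousOn.inv₀ (wtA_cont888 n).continuousOn
  intro x hx
  exact (wtA_pos888 n hx).ne'

theorem gLker_intble888 (n : ℤ) {g : ℝ → ℂ} (hg : Continuous g) {t : ℝ} (ht : 0 ≤ t) :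
    IntervalIntegrable (gLker888 n g) volume 0 t := by
  rw [intervalIntegrable_iff_integrableOn_Ioc_of_le ht]
  obtain ⟨C, hC⟩ := (isCompact_Icc (a := (0:ℝ)) (b := t)).exists_bound_of_continuousOn
    hg.continuousOn
  apply IntegrableOn.of_bound measure_Ioc_lt_top
    (((gLker_contOn888 n hg).mono (fun x hx => hx.1)).aestronglyMeasurable measurableSet_Ioc)
    (C * t)
  · rw [ae_restrict_iff' measurableSet_Ioc]
    refine Filter.Eventually.of_forall (fun r hr => ?_)
    have hC0 : 0 ≤ C := (norm_nonneg _).trans (hC r ⟨hr.1.le, hr.2⟩)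
    refine (gLker_bound888 n g hr.1 (fun q hq => hC q ⟨hq.1.le, hq.2.trans hr.2⟩)).trans ?_
    exact mul_le_mul_of_nonneg_left hr.2 hC0

/-- `gL888` only depends on the values on `(0, t]`. -/
theorem gL_congr888 (n : ℤ) (g g' : ℝ → ℂ) {t : ℝ} (ht : 0 ≤ t)
    (h : ∀ q, 0 < q → q ≤ t → g q = g' q) : gL888 n g t = gL888 n g' t := by
  unfold gL888
  apply intervalIntegral.integral_congr
  intro r hr
  rw [uIcc_of_le ht] at hr
  simp only
  congr 1
  apply intervalIntegral.integral_congr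
  intro q hq
  rw [uIcc_of_le hr.1] at hq
  simp only
  rcases eq_or_lt_of_le hq.1 with h0 | h0
  · rw [← h0, wtA_zero888]; simp
  · rw [h q h0 (hq.2.trans hr.2)]

/-- The continuous extension of a function on `[0, ∞)` to `ℝ` (constant on `(-∞, 0]`). -/
def extC888 (g : ℝ → ℂ) (q : ℝ) : ℂ := g (max q 0)

theorem extC_cont888 {g : ℝ → ℂ} (hg : ContinuousOn g (Ici 0)) : Continuous (extC888 g) := by
  unfold extC888
  exact hg.comp_continuous (by fun_prop) (fun q => le_max_right q 0)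

theorem extC_eq888 (g : ℝ → ℂ) {q : ℝ} (hq : 0 ≤ q) : extC888 g q = g q := by
  unfold extC888; rw [max_eq_left hq]

theorem gL_ext888 (n : ℤ) (g : ℝ → ℂ) {t : ℝ} (ht : 0 ≤ t) :
    gL888 n (extC888 g) t = gL888 n g t :=
  gL_congr888 n _ _ ht (fun _ hq _ => extC_eq888 g hq.le)

theorem gL_sub888 (n : ℤ) {f g : ℝ → ℂ} (hf : Continuous f) (hg : Continuous g) {t : ℝ}
    (ht : 0 ≤ t) : gL888 n (fun q => f q - g q) t = gL888 n f t - gL888 n g t := by
  rw [gL_eq888, gL_eq888, gL_eq888,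
    ← intervalIntegral.integral_sub (gLker_intble888 n hf ht) (gLker_intble888 n hg ht)]
  apply intervalIntegral.integral_congr
  intro r _
  simp only [gLker888, gLin888]
  rw [← mul_sub, ← intervalIntegral.integral_sub]
  · congr 1
    apply intervalIntegral.integral_congr
    intro q _
    simp only
    ring
  · exact Continuous.intervalIntegrable
      ((Complex.continuous_ofReal.comp (wtA_cont888 n)).mul hf) _ _
  · exact Continuous.intervalIntegrable
      ((Complex.continuous_ofReal.comp (wtA_cont888 n)).mul hg) _ _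

theorem gL_const_mul888 (n : ℤ) (c : ℂ) (g : ℝ → ℂ) (t : ℝ) :
    gL888 n (fun q => c * g q) t = c * gL888 n g t := by
  unfold gL888
  rw [← intervalIntegral.integral_const_mul]
  apply intervalIntegral.integral_congr
  intro r _
  simp only
  have : (∫ q in (0:ℝ)..r, ((wtA888 n q : ℝ) : ℂ) * (c * g q))
      = c * ∫ q in (0:ℝ)..r, ((wtA888 n q : ℝ) : ℂ) * g q := by
    rw [← intervalIntegral.integral_const_mul]
    apply intervalIntegral.integral_congr
    intro q _
    simp only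
    ring
  rw [this]; ring

end Fermat.Agent.LT.T6.H888

end
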