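import Mathlib
import Fermat.Agent.LT.T6.H888.GreenBasic

/-!
# Row LT, tower T6, leaf T6.22 (helper888): SHARED LEMMA for the leaves T6.22.B and T6.22.D

`avg_volterra888`: if `h(t, φ)` is twice differentiable in `t` (jointly continuous derivatives)
and `A h_tt + A' h_t = A k + ∂_φ Ψ` with `Ψ(t, ·)` of equal values at `0` and `2π`, then the
angular integral `p(t) = ∫₀^{2π} h(t, φ) dφ` satisfies
`p(T) = p(0) + gL888 n (fun q => ∫₀^{2π} k(q, φ) dφ) T` for `T ≥ 0`.
-/

set_option autoImplicit false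

open MeasureTheory Set

noncomputable section

namespace Fermat.Agent.LT.T6.H888

/-- The derivative of the radial weight. -/
def wtA'888 (n : ℤ) (t : ℝ) : ℝ :=
  if n = 0 then Real.cosh t else Real.cosh t * (1 + Real.cosh t) + Real.sinh t * Real.sinh t

theorem wtA_hasDerivAt888 (n : ℤ) (t : ℝ) : HasDerivAt (wtA888 n) (wtA'888 n t) t := by
  by_cases h : n = 0
  · have e1 : wtA888 n = fun t => Real.sinh t := by funext t; simp [wtA888, h]
    have e2 : wtA'888 n t = Real.cosh t := by simp [wtA'888, h]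
    rw [e1, e2]
    exact Real.hasDerivAt_sinh t
  · have e1 : wtA888 n = fun t => Real.sinh t * (1 + Real.cosh t) := by
      funext t; simp [wtA888, h]
    have e2 : wtA'888 n t = Real.cosh t * (1 + Real.cosh t) + Real.sinh t * Real.sinh t := by
      simp [wtA'888, h]
    rw [e1, e2]
    have := (Real.hasDerivAt_sinh t).mul ((Real.hasDerivAt_cosh t).const_add 1)
    exact this

theorem wtA'_cont888 (n : ℤ) : Continuous (wtA'888 n) := by
  by_cases h : n = 0
  · have : wtA'888 n = fun t => Real.cosh t := by funext t; simp [wtA'888, h]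
    rw [this]; fun_prop
  · have : wtA'888 n = fun t => Real.cosh t * (1 + Real.cosh t) + Real.sinh t * Real.sinh t := by
      funext t; simp [wtA'888, h]
    rw [this]; fun_prop

/-- Differentiation under the integral sign, for jointly continuous derivatives. -/
theorem hasDerivAt_pint888 {h h1 : ℝ → ℝ → ℂ}
    (hh : ∀ t φ, HasDerivAt (fun t => h t φ) (h1 t φ) t)
    (ch : Continuous (Function.uncurry h)) (ch1 : Continuous (Function.uncurry h1))
    (a b t₀ : ℝ) :
    HasDerivAt (fun t => ∫ φ in a..b, h t φ) (∫ φ in a..b, h1 t₀ φ) t₀ := by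
  obtain ⟨C, hC⟩ := ((isCompact_Icc (a := t₀ - 1) (b := t₀ + 1)).prod
    (isCompact_uIcc (a := a) (b := b))).exists_bound_of_continuousOn ch1.continuousOn
  have cs : ∀ t, Continuous (h t) := fun t =>
    ch.comp (continuous_const.prodMk continuous_id)
  have cs1 : ∀ t, Continuous (h1 t) := fun t =>
    ch1.comp (continuous_const.prodMk continuous_id)
  have := intervalIntegral.hasDerivAt_integral_of_dominated_loc_of_deriv_le (μ := volume)
    (F := h) (F' := h1) (x₀ := t₀) (s := Icc (t₀ - 1) (t₀ + 1)) (bound := fun _ => C)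
    (a := a) (b := b)
    (Icc_mem_nhds (by linarith) (by linarith))
    (Filter.Eventually.of_forall (fun t => (cs t).aestronglyMeasurable))
    ((cs t₀).intervalIntegrable a b)
    ((cs1 t₀).aestronglyMeasurable)
    (Filter.Eventually.of_forall (fun φ hφ t ht => hC (t, φ) ⟨ht, uIoc_subset_uIcc hφ⟩))
    intervalIntegrable_const
    (Filter.Eventually.of_forall (fun φ _ t _ => hh t φ))
  exact this.2

theorem cont_pint888 {k : ℝ → ℝ → ℂ} (ck : Continuous (Function.uncurry k)) (a b : ℝ) :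
    Continuous (fun t => ∫ φ in a..b, k t φ) :=
  intervalIntegral.continuous_parametric_intervalIntegral_of_continuous' ck a b

/-- **The shared lemma**: from the pointwise identity to the Volterra form. -/
theorem avg_volterra888 (n : ℤ) {h h1 h2 k Ψ Ψ' : ℝ → ℝ → ℂ}
    (hh : ∀ t φ, HasDerivAt (fun t => h t φ) (h1 t φ) t)
    (hh1 : ∀ t φ, HasDerivAt (fun t => h1 t φ) (h2 t φ) t)
    (ch : Continuous (Function.uncurry h)) (ch1 : Continuous (Function.uncurry h1))
    (ch2 : Continuous (Function.uncurry h2)) (ck : Continuous (Function.uncurry k))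
    (hΨ : ∀ t φ, HasDerivAt (fun φ => Ψ t φ) (Ψ' t φ) φ)
    (cΨ' : ∀ t, Continuous (Ψ' t))
    (hper : ∀ t, Ψ t (2 * Real.pi) = Ψ t 0)
    (hid : ∀ t φ, ((wtA888 n t : ℝ) : ℂ) * h2 t φ + ((wtA'888 n t : ℝ) : ℂ) * h1 t φ
      = ((wtA888 n t : ℝ) : ℂ) * k t φ + Ψ' t φ) :
    ∀ T : ℝ, 0 ≤ T →
      (∫ φ in (0:ℝ)..(2 * Real.pi), h T φ)
        = (∫ φ in (0:ℝ)..(2 * Real.pi), h 0 φ)
          + gL888 n (fun q => ∫ φ in (0:ℝ)..(2 * Real.pi), k q φ) T := by
  intro T hT
  have cs1 : ∀ t, Continuous (h1 t) := fun t =>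
    ch1.comp (continuous_const.prodMk continuous_id)
  have cs2 : ∀ t, Continuous (h2 t) := fun t =>
    ch2.comp (continuous_const.prodMk continuous_id)
  have csk : ∀ t, Continuous (k t) := fun t =>
    ck.comp (continuous_const.prodMk continuous_id)
  have hp : ∀ t, HasDerivAt (fun t => ∫ φ in (0:ℝ)..(2 * Real.pi), h t φ)
      (∫ φ in (0:ℝ)..(2 * Real.pi), h1 t φ) t := fun t => hasDerivAt_pint888 hh ch ch1 _ _ t
  have hp1 : ∀ t, HasDerivAt (fun t => ∫ φ in (0:ℝ)..(2 * Real.pi), h1 t φ)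
      (∫ φ in (0:ℝ)..(2 * Real.pi), h2 t φ) t := fun t => hasDerivAt_pint888 hh1 ch1 ch2 _ _ t
  have cp1 := cont_pint888 ch1 0 (2 * Real.pi)
  have ckb := cont_pint888 ck 0 (2 * Real.pi)
  -- the averaged identity
  have hav : ∀ t, ((wtA888 n t : ℝ) : ℂ) * (∫ φ in (0:ℝ)..(2 * Real.pi), h2 t φ)
      + ((wtA'888 n t : ℝ) : ℂ) * (∫ φ in (0:ℝ)..(2 * Real.pi), h1 t φ)
      = ((wtA888 n t : ℝ) : ℂ) * ∫ φ in (0:ℝ)..(2 * Real.pi), k t φ := by
    intro t
    have e0 : (∫ φ in (0:ℝ)..(2 * Real.pi), Ψ' t φ) = 0 := by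
      rw [intervalIntegral.integral_eq_sub_of_hasDerivAt (fun φ _ => hΨ t φ)
        ((cΨ' t).intervalIntegrable _ _), hper t, sub_self]
    rw [← intervalIntegral.integral_const_mul, ← intervalIntegral.integral_const_mul,
      ← intervalIntegral.integral_const_mul,
      ← intervalIntegral.integral_add (((cs2 t).const_mul _).intervalIntegrable _ _)
        (((cs1 t).const_mul _).intervalIntegrable _ _)]
    have e1 : (∫ φ in (0:ℝ)..(2 * Real.pi), ((wtA888 n t : ℝ) : ℂ) * k t φ)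
        = (∫ φ in (0:ℝ)..(2 * Real.pi), ((wtA888 n t : ℝ) : ℂ) * k t φ)
          + ∫ φ in (0:ℝ)..(2 * Real.pi), Ψ' t φ := by rw [e0, add_zero]
    rw [e1, ← intervalIntegral.integral_add (((csk t).const_mul _).intervalIntegrable _ _)
      ((cΨ' t).intervalIntegrable _ _)]
    exact intervalIntegral.integral_congr (fun φ _ => hid t φ)
  -- `A p'` is a primitive of `A k̄`
  have hAp : ∀ t, HasDerivAt
      (fun t => ((wtA888 n t : ℝ) : ℂ) * ∫ φ in (0:ℝ)..(2 * Real.pi), h1 t φ)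
      (((wtA888 n t : ℝ) : ℂ) * ∫ φ in (0:ℝ)..(2 * Real.pi), k t φ) t := by
    intro t
    have hA : HasDerivAt (fun t => ((wtA888 n t : ℝ) : ℂ)) ((wtA'888 n t : ℝ) : ℂ) t :=
      (wtA_hasDerivAt888 n t).ofReal_comp
    have := hA.mul (hp1 t)
    exact this.congr_deriv (by rw [← hav t]; ring)
  have cAk : Continuous
      (fun t => ((wtA888 n t : ℝ) : ℂ) * ∫ φ in (0:ℝ)..(2 * Real.pi), k t φ) :=
    (Complex.continuous_ofReal.comp (wtA_cont888 n)).mul ckb
  have hin : ∀ r, ((wtA888 n r : ℝ) : ℂ) * (∫ φ in (0:ℝ)..(2 * Real.pi), h1 r φ)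
      = gLin888 n (fun q => ∫ φ in (0:ℝ)..(2 * Real.pi), k q φ) r := by
    intro r
    unfold gLin888
    rw [intervalIntegral.integral_eq_sub_of_hasDerivAt (fun t _ => hAp t)
      (cAk.intervalIntegrable _ _), wtA_zero888]
    simp
  have hker : ∀ r, 0 < r → (∫ φ in (0:ℝ)..(2 * Real.pi), h1 r φ)
      = gLker888 n (fun q => ∫ φ in (0:ℝ)..(2 * Real.pi), k q φ) r := by
    intro r hr
    unfold gLker888
    rw [← hin r, ← mul_assoc]
    have hA : ((wtA888 n r : ℝ) : ℂ) ≠ 0 := by exact_mod_cast (wtA_pos888 n hr).ne'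
    push_cast
    field_simp
  have hfin : (∫ r in (0:ℝ)..T, ∫ φ in (0:ℝ)..(2 * Real.pi), h1 r φ)
      = (∫ φ in (0:ℝ)..(2 * Real.pi), h T φ) - ∫ φ in (0:ℝ)..(2 * Real.pi), h 0 φ :=
    intervalIntegral.integral_eq_sub_of_hasDerivAt (fun t _ => hp t) (cp1.intervalIntegrable _ _)
  have hcong : (∫ r in (0:ℝ)..T,
      gLker888 n (fun q => ∫ φ in (0:ℝ)..(2 * Real.pi), k q φ) r)
      = ∫ r in (0:ℝ)..T, ∫ φ in (0:ℝ)..(2 * Real.pi), h1 r φ := by
    apply intervalIntegral.integral_congr_ae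
    refine Filter.Eventually.of_forall (fun r hr => ?_)
    rw [uIoc_of_le hT] at hr
    exact (hker r hr.1).symm
  rw [gL_eq888, hcong, hfin]
  ring

end Fermat.Agent.LT.T6.H888

end
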