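import Mathlib
import Fermat.Agent.LT.T6.H888.AvgODE

/-!
# Row LT, tower T6, leaf T6.22.D (helper888): complex powers of positive reals, the function `η`

`pw888 c x = exp (c log x)` (`= (x : ℂ) ^ c` for `x > 0`), `eta888 t φ = cosh t - cos φ sinh t`.
-/

set_option autoImplicit false

open MeasureTheory Set

noncomputable section

namespace Fermat.Agent.LT.T6.H888

/-- `x ^ c` for `x > 0` real and `c` complex. -/
def pw888 (c : ℂ) (x : ℝ) : ℂ := Complex.exp (c * ((Real.log x : ℝ) : ℂ))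

theorem pw_eq_cpow888 (c : ℂ) {x : ℝ} (hx : 0 < x) : ((x : ℝ) : ℂ) ^ c = pw888 c x := by
  rw [Complex.cpow_def_of_ne_zero (by exact_mod_cast hx.ne'), ← Complex.ofReal_log hx.le,
    mul_comm]
  rfl

theorem pw_add888 (c d : ℂ) (x : ℝ) : pw888 (c + d) x = pw888 c x * pw888 d x := by
  unfold pw888; rw [add_mul, Complex.exp_add]

theorem pw_one888 {x : ℝ} (hx : 0 < x) : pw888 1 x = x := by
  unfold pw888; rw [one_mul, ← Complex.ofReal_exp, Real.exp_log hx]

theorem pw_succ888 (c : ℂ) {x : ℝ} (hx : 0 < x) : pw888 (c + 1) x = x * pw888 c x := by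
  rw [pw_add888, pw_one888 hx, mul_comm]

theorem pw_at_one888 (c : ℂ) : pw888 c 1 = 1 := by simp [pw888]

/-- `x^(c-1) = x · x^(c-2)`, in the form used below. -/
theorem pw_m1_888 (c : ℂ) {x : ℝ} (hx : 0 < x) : pw888 (c - 1) x = x * pw888 (c - 2) x := by
  have := pw_succ888 (c - 2) hx
  rw [← this]; congr 1; ring

theorem pw_m0_888 (c : ℂ) {x : ℝ} (hx : 0 < x) :
    pw888 c x = (x : ℂ) ^ 2 * pw888 (c - 2) x := by
  have h1 := pw_succ888 (c - 1) hx
  rw [sub_add_cancel] at h1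
  rw [h1, pw_m1_888 c hx]; ring

theorem pw_hasDerivAt888 (c : ℂ) {f : ℝ → ℝ} {f' x : ℝ} (hf : HasDerivAt f f' x)
    (hpos : 0 < f x) :
    HasDerivAt (fun t => pw888 c (f t)) (c * pw888 (c - 1) (f x) * f') x := by
  have h1 : HasDerivAt (fun t => ((Real.log (f t) : ℝ) : ℂ)) (((f' / f x : ℝ)) : ℂ) x :=
    (hf.log hpos.ne').ofReal_comp
  have h2 := (h1.const_mul c).cexp
  refine h2.congr_deriv ?_
  have e : pw888 c (f x) = (f x : ℂ) * pw888 (c - 1) (f x) := by
    have := pw_succ888 (c - 1) hpos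
    rwa [sub_add_cancel] at this
  have e' : Complex.exp (c * ((Real.log (f x) : ℝ) : ℂ)) = (f x : ℂ) * pw888 (c - 1) (f x) := e
  rw [e']
  have hne : ((f x : ℝ) : ℂ) ≠ 0 := by exact_mod_cast hpos.ne'
  push_cast
  field_simp

theorem pw_cont888 (c : ℂ) {X : Type*} [TopologicalSpace X] {f : X → ℝ} (hf : Continuous f)
    (hpos : ∀ x, 0 < f x) : Continuous (fun x => pw888 c (f x)) := by
  unfold pw888
  exact Complex.continuous_exp.comp (continuous_const.mul
    (Complex.continuous_ofReal.comp (hf.log (fun x => (hpos x).ne'))))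

/-- `η(t, φ) = cosh t - cos φ sinh t`. -/
def eta888 (t φ : ℝ) : ℝ := Real.cosh t - Real.cos φ * Real.sinh t

/-- `∂η/∂t`. -/
def etaT888 (t φ : ℝ) : ℝ := Real.sinh t - Real.cos φ * Real.cosh t

theorem eta_pos888 (t φ : ℝ) : 0 < eta888 t φ := by
  unfold eta888
  have h1 := Real.exp_pos t
  have h2 := Real.exp_pos (-t)
  have h3 := Real.neg_one_le_cos φ
  have h4 := Real.cos_le_one φ
  rw [Real.cosh_eq, Real.sinh_eq]
  have e : (Real.exp t + Real.exp (-t)) / 2 - Real.cos φ * ((Real.exp t - Real.exp (-t)) / 2)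
      = (1 - Real.cos φ) / 2 * Real.exp t + (1 + Real.cos φ) / 2 * Real.exp (-t) := by ring
  rw [e]
  rcases eq_or_lt_of_le h4 with h5 | h5
  · rw [h5]; norm_num; exact h2
  · have : 0 < (1 - Real.cos φ) / 2 * Real.exp t := by
      apply mul_pos _ h1; linarith
    have : 0 ≤ (1 + Real.cos φ) / 2 * Real.exp (-t) := by
      apply mul_nonneg _ h2.le; linarith
    linarith

theorem eta_zero888 (φ : ℝ) : eta888 0 φ = 1 := by simp [eta888]

theorem eta_hasDerivAt888 (t φ : ℝ) : HasDerivAt (fun t => eta888 t φ) (etaT888 t φ) t := by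
  unfold eta888 etaT888
  exact (Real.hasDerivAt_cosh t).sub ((Real.hasDerivAt_sinh t).const_mul _)

theorem etaT_hasDerivAt888 (t φ : ℝ) : HasDerivAt (fun t => etaT888 t φ) (eta888 t φ) t := by
  unfold eta888 etaT888
  exact (Real.hasDerivAt_sinh t).sub ((Real.hasDerivAt_cosh t).const_mul _)

theorem eta_hasDerivAt_phi888 (t φ : ℝ) :
    HasDerivAt (fun φ => eta888 t φ) (Real.sin φ * Real.sinh t) φ := by
  unfold eta888
  have := ((Real.hasDerivAt_cos φ).mul_const (Real.sinh t)).const_sub (Real.cosh t)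
  refine this.congr_deriv ?_
  ring

theorem eta_cont888 : Continuous (fun p : ℝ × ℝ => eta888 p.1 p.2) := by
  unfold eta888; fun_prop

theorem etaT_cont888 : Continuous (fun p : ℝ × ℝ => etaT888 p.1 p.2) := by
  unfold etaT888; fun_prop

end Fermat.Agent.LT.T6.H888

end
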