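import Mathlib
import Fermat.Agent.LT.T6.H888.PowReal

/-!
# Row LT, tower T6, leaf T6.22.D (helper888): the weight `0` case

`sph0_volterra888`: `ps(t) = (1/2π) ∫₀^{2π} η(t, φ)^e dφ` satisfies
`ps = 1 + e (e + 1) · gL888 0 ps` on `[0, ∞)`.
-/

set_option autoImplicit false

open MeasureTheory Set

noncomputable section

namespace Fermat.Agent.LT.T6.H888

/-- The algebraic identity behind the weight `0` case (`E = η^(e-2)`). -/
theorem sph0_alg888 (C S c sn e E : ℂ) (h1 : S ^ 2 = C ^ 2 - 1) (h2 : sn ^ 2 = 1 - c ^ 2) :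
    S * (e * ((e - 1) * E * (S - c * C) * (S - c * C) + ((C - c * S) * E) * (C - c * S)))
      + C * (e * ((C - c * S) * E) * (S - c * C))
    = S * (e * (e + 1) * ((C - c * S) ^ 2 * E))
      + (-e) * ((e - 1) * E * (sn * S) * sn + ((C - c * S) * E) * c) := by
  linear_combination (E * (C*c*e + (-1)*S*c^2*e^2 + (-1)*S*e + S*e^2)) * h1
    + (E * ((-1)*S*e + S*e^2)) * h2

/-- The integrand. -/
def s0h888 (e : ℂ) (t φ : ℝ) : ℂ := pw888 e (eta888 t φ)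

/-- Its first `t`-derivative. -/
def s0h1_888 (e : ℂ) (t φ : ℝ) : ℂ := e * pw888 (e - 1) (eta888 t φ) * ((etaT888 t φ : ℝ) : ℂ)

/-- Its second `t`-derivative. -/
def s0h2_888 (e : ℂ) (t φ : ℝ) : ℂ :=
  e * ((e - 1) * pw888 (e - 1 - 1) (eta888 t φ) * ((etaT888 t φ : ℝ) : ℂ)
      * ((etaT888 t φ : ℝ) : ℂ)
    + pw888 (e - 1) (eta888 t φ) * ((eta888 t φ : ℝ) : ℂ))

/-- The `φ`-potential. -/
def s0Psi888 (e : ℂ) (t φ : ℝ) : ℂ :=
  (-e) * (pw888 (e - 1) (eta888 t φ) * ((Real.sin φ : ℝ) : ℂ))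

/-- Its `φ`-derivative. -/
def s0Psi'888 (e : ℂ) (t φ : ℝ) : ℂ :=
  (-e) * ((e - 1) * pw888 (e - 1 - 1) (eta888 t φ) * ((Real.sin φ * Real.sinh t : ℝ) : ℂ)
      * ((Real.sin φ : ℝ) : ℂ)
    + pw888 (e - 1) (eta888 t φ) * ((Real.cos φ : ℝ) : ℂ))

theorem s0h_hasDerivAt888 (e : ℂ) (t φ : ℝ) :
    HasDerivAt (fun t => s0h888 e t φ) (s0h1_888 e t φ) t :=
  pw_hasDerivAt888 e (eta_hasDerivAt888 t φ) (eta_pos888 t φ)

theorem s0h1_hasDerivAt888 (e : ℂ) (t φ : ℝ) :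
    HasDerivAt (fun t => s0h1_888 e t φ) (s0h2_888 e t φ) t := by
  have h1 := pw_hasDerivAt888 (e - 1) (eta_hasDerivAt888 t φ) (eta_pos888 t φ)
  have h2 : HasDerivAt (fun t => ((etaT888 t φ : ℝ) : ℂ)) ((eta888 t φ : ℝ) : ℂ) t :=
    (etaT_hasDerivAt888 t φ).ofReal_comp
  have h3 := (h1.const_mul e).mul h2
  refine (h3.congr_deriv ?_)
  unfold s0h2_888
  ring

theorem s0Psi_hasDerivAt888 (e : ℂ) (t φ : ℝ) :
    HasDerivAt (fun φ => s0Psi888 e t φ) (s0Psi'888 e t φ) φ := by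
  have h1 := pw_hasDerivAt888 (e - 1) (eta_hasDerivAt_phi888 t φ) (eta_pos888 t φ)
  have h2 : HasDerivAt (fun φ => ((Real.sin φ : ℝ) : ℂ)) ((Real.cos φ : ℝ) : ℂ) φ :=
    (Real.hasDerivAt_sin φ).ofReal_comp
  have h3 := (h1.mul h2).const_mul (-e)
  refine (h3.congr_deriv ?_)
  unfold s0Psi'888
  ring

theorem s0h_cont888 (e : ℂ) : Continuous (Function.uncurry (s0h888 e)) := by
  have : Function.uncurry (s0h888 e) = fun p : ℝ × ℝ => pw888 e (eta888 p.1 p.2) := by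
    funext ⟨t, φ⟩; rfl
  rw [this]
  exact pw_cont888 e eta_cont888 (fun p => eta_pos888 p.1 p.2)

theorem s0h1_cont888 (e : ℂ) : Continuous (Function.uncurry (s0h1_888 e)) := by
  have : Function.uncurry (s0h1_888 e) = fun p : ℝ × ℝ =>
      e * pw888 (e - 1) (eta888 p.1 p.2) * ((etaT888 p.1 p.2 : ℝ) : ℂ) := by
    funext ⟨t, φ⟩; rfl
  rw [this]
  exact (continuous_const.mul (pw_cont888 _ eta_cont888 (fun p => eta_pos888 p.1 p.2))).mul
    (Complex.continuous_ofReal.comp etaT_cont888)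

theorem s0h2_cont888 (e : ℂ) : Continuous (Function.uncurry (s0h2_888 e)) := by
  have : Function.uncurry (s0h2_888 e) = fun p : ℝ × ℝ =>
      e * ((e - 1) * pw888 (e - 1 - 1) (eta888 p.1 p.2) * ((etaT888 p.1 p.2 : ℝ) : ℂ)
          * ((etaT888 p.1 p.2 : ℝ) : ℂ)
        + pw888 (e - 1) (eta888 p.1 p.2) * ((eta888 p.1 p.2 : ℝ) : ℂ)) := by
    funext ⟨t, φ⟩; rfl
  rw [this]
  have c1 := pw_cont888 (e - 1 - 1) eta_cont888 (fun p => eta_pos888 p.1 p.2)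
  have c2 := pw_cont888 (e - 1) eta_cont888 (fun p => eta_pos888 p.1 p.2)
  have c3 := Complex.continuous_ofReal.comp etaT_cont888
  have c4 := Complex.continuous_ofReal.comp eta_cont888
  exact continuous_const.mul ((((continuous_const.mul c1).mul c3).mul c3).add (c2.mul c4))

theorem s0Psi'_cont888 (e : ℂ) (t : ℝ) : Continuous (s0Psi'888 e t) := by
  have c0 : Continuous (fun φ : ℝ => eta888 t φ) := by unfold eta888; fun_prop
  have c1 := pw_cont888 (e - 1 - 1) c0 (fun φ => eta_pos888 t φ)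
  have c2 := pw_cont888 (e - 1) c0 (fun φ => eta_pos888 t φ)
  have c3 : Continuous (fun φ : ℝ => ((Real.sin φ * Real.sinh t : ℝ) : ℂ)) :=
    Complex.continuous_ofReal.comp (by fun_prop)
  have c4 : Continuous (fun φ : ℝ => ((Real.sin φ : ℝ) : ℂ)) :=
    Complex.continuous_ofReal.comp (by fun_prop)
  have c5 : Continuous (fun φ : ℝ => ((Real.cos φ : ℝ) : ℂ)) :=
    Complex.continuous_ofReal.comp (by fun_prop)
  unfold s0Psi'888
  exact continuous_const.mul ((((continuous_const.mul c1).mul c3).mul c4).add (c2.mul c5))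

theorem s0_id888 (e : ℂ) (t φ : ℝ) :
    ((wtA888 0 t : ℝ) : ℂ) * s0h2_888 e t φ + ((wtA'888 0 t : ℝ) : ℂ) * s0h1_888 e t φ
      = ((wtA888 0 t : ℝ) : ℂ) * (e * (e + 1) * s0h888 e t φ) + s0Psi'888 e t φ := by
  have hA : wtA888 0 t = Real.sinh t := by simp [wtA888]
  have hA' : wtA'888 0 t = Real.cosh t := by simp [wtA'888]
  have hpos := eta_pos888 t φ
  have e1 : pw888 (e - 1) (eta888 t φ)
      = ((eta888 t φ : ℝ) : ℂ) * pw888 (e - 1 - 1) (eta888 t φ) := by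
    have := pw_succ888 (e - 1 - 1) hpos
    rwa [sub_add_cancel] at this
  have e0 : pw888 e (eta888 t φ)
      = ((eta888 t φ : ℝ) : ℂ) ^ 2 * pw888 (e - 1 - 1) (eta888 t φ) := by
    have := pw_succ888 (e - 1) hpos
    rw [sub_add_cancel] at this
    rw [this, e1]; ring
  have r1 : ((Real.sinh t : ℝ) : ℂ) ^ 2 = ((Real.cosh t : ℝ) : ℂ) ^ 2 - 1 := by
    have := Real.cosh_sq t
    have h : Real.sinh t ^ 2 = Real.cosh t ^ 2 - 1 := by linarith
    exact_mod_cast h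
  have r2 : ((Real.sin φ : ℝ) : ℂ) ^ 2 = 1 - ((Real.cos φ : ℝ) : ℂ) ^ 2 := by
    have := Real.sin_sq_add_cos_sq φ
    have h : Real.sin φ ^ 2 = 1 - Real.cos φ ^ 2 := by linarith
    exact_mod_cast h
  have key := sph0_alg888 (Real.cosh t) (Real.sinh t) (Real.cos φ) (Real.sin φ) e
    (pw888 (e - 1 - 1) (eta888 t φ)) r1 r2
  unfold s0h2_888 s0h1_888 s0h888 s0Psi'888
  rw [hA, hA', e0, e1]
  have c1 : ((eta888 t φ : ℝ) : ℂ)
      = ((Real.cosh t : ℝ) : ℂ) - ((Real.cos φ : ℝ) : ℂ) * ((Real.sinh t : ℝ) : ℂ) := by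
    unfold eta888; push_cast; ring
  have c2 : ((etaT888 t φ : ℝ) : ℂ)
      = ((Real.sinh t : ℝ) : ℂ) - ((Real.cos φ : ℝ) : ℂ) * ((Real.cosh t : ℝ) : ℂ) := by
    unfold etaT888; push_cast; ring
  have c3 : ((Real.sin φ * Real.sinh t : ℝ) : ℂ)
      = ((Real.sin φ : ℝ) : ℂ) * ((Real.sinh t : ℝ) : ℂ) := by push_cast; ring
  rw [c1, c2, c3]
  exact key

/-- The normalised spherical function of weight `0` (exponent `e = -s - 1/2`). -/
def ps0_888 (e : ℂ) (t : ℝ) : ℂ :=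
  ((1 / (2 * Real.pi) : ℝ) : ℂ) * ∫ φ in (0:ℝ)..(2 * Real.pi), s0h888 e t φ

theorem ps0_cont888 (e : ℂ) : Continuous (ps0_888 e) :=
  continuous_const.mul (cont_pint888 (s0h_cont888 e) 0 (2 * Real.pi))

theorem sph0_volterra888 (e : ℂ) (T : ℝ) (hT : 0 ≤ T) :
    ps0_888 e T = 1 + e * (e + 1) * gL888 0 (ps0_888 e) T := by
  have hk : Continuous (Function.uncurry (fun t φ => e * (e + 1) * s0h888 e t φ)) := by
    have := (s0h_cont888 e)
    exact continuous_const.mul this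
  have hper : ∀ t, s0Psi888 e t (2 * Real.pi) = s0Psi888 e t 0 := by
    intro t; simp [s0Psi888]
  have main := avg_volterra888 0 (h := s0h888 e) (h1 := s0h1_888 e) (h2 := s0h2_888 e)
    (k := fun t φ => e * (e + 1) * s0h888 e t φ) (Ψ := s0Psi888 e) (Ψ' := s0Psi'888 e)
    (s0h_hasDerivAt888 e) (s0h1_hasDerivAt888 e) (s0h_cont888 e) (s0h1_cont888 e)
    (s0h2_cont888 e) hk (s0Psi_hasDerivAt888 e) (s0Psi'_cont888 e) hper (s0_id888 e) T hT
  have h0 : (∫ φ in (0:ℝ)..(2 * Real.pi), s0h888 e 0 φ) = ((2 * Real.pi : ℝ) : ℂ) := by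
    have : ∀ φ, s0h888 e 0 φ = 1 := fun φ => by
      unfold s0h888; rw [eta_zero888, pw_at_one888]
    simp only [this]
    simp
  have hg : (fun q => ∫ φ in (0:ℝ)..(2 * Real.pi), e * (e + 1) * s0h888 e q φ)
      = fun q => (e * (e + 1) * ((2 * Real.pi : ℝ) : ℂ)) * ps0_888 e q := by
    funext q
    rw [intervalIntegral.integral_const_mul]
    unfold ps0_888
    have hpi : ((2 * Real.pi : ℝ) : ℂ) ≠ 0 := by
      exact_mod_cast (by positivity : (2 * Real.pi : ℝ) ≠ 0)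
    push_cast
    push_cast at hpi
    field_simp
  rw [hg, gL_const_mul888, h0] at main
  have e2 : ps0_888 e T
      = ((1 / (2 * Real.pi) : ℝ) : ℂ) * ∫ φ in (0:ℝ)..(2 * Real.pi), s0h888 e T φ := rfl
  rw [e2, main]
  have hpi : ((2 * Real.pi : ℝ) : ℂ) ≠ 0 := by
    exact_mod_cast (by positivity : (2 * Real.pi : ℝ) ≠ 0)
  push_cast
  push_cast at hpi
  field_simp

end Fermat.Agent.LT.T6.H888

end
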