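import Mathlib
import Fermat.Agent.LT.T6.H888.Sph0

/-!
# Row LT, tower T6, leaf T6.22.D (helper888): the weight `±1` case

`sph1_volterra888`: `ps(t) = (1/2π) ∫₀^{2π} (1 - cos φ tanh(t/2)) η(t, φ)^e dφ` satisfies
`ps = 1 + e (e + 2) · gL888 n ps` on `[0, ∞)` (`n ≠ 0`).
-/

set_option autoImplicit false

open MeasureTheory Set

noncomputable section

namespace Fermat.Agent.LT.T6.H888

/-- The algebraic identity behind the weight `±1` case (`E = η^(e-2)`, `w = 1/(1 + C)`);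
the coefficients were computed by polynomial division. -/
theorem sph1_alg888 (C S w c sn e E : ℂ) (h1 : S ^ 2 = C ^ 2 - 1) (h2 : sn ^ 2 = 1 - c ^ 2)
    (h3 : C * w = 1 - w) :
    (S * (1 + C)) * ((c * (S * w ^ 2)) * ((C - c * S) ^ 2 * E)
        + (-(c * w)) * (e * ((C - c * S) * E) * (S - c * C))
        + ((-(c * w)) * (e * ((C - c * S) * E) * (S - c * C))
          + (1 - c * (S * w)) * (e * ((e - 1) * E * (S - c * C) * (S - c * C)
            + ((C - c * S) * E) * (C - c * S)))))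
      + (C * (1 + C) + S * S) * ((-(c * w)) * ((C - c * S) ^ 2 * E)
        + (1 - c * (S * w)) * (e * ((C - c * S) * E) * (S - c * C)))
    = (S * (1 + C)) * (e * (e + 2) * ((1 - c * (S * w)) * ((C - c * S) ^ 2 * E)))
      + (c * (-C * ((C - c * S) ^ 2 * E) - e * (1 + (C - c * S)) * ((C - c * S) * E))
        + sn * (-C * (e * ((C - c * S) * E) * (sn * S))
          - e * ((sn * S) * ((C - c * S) * E)
            + (1 + (C - c * S)) * ((e - 1) * E * (sn * S))))) := by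
  linear_combination
    (E * ((-1)*C*S*c^2*e*w + (-1)*C*S*c^2*e^2 + (2)*C*S*c^2*w + (-2)*C*S*c^2*w^2 + (1)*C*S*e^2 +
      (-1)*C*S^2*c*e^2*w + (1)*C*S^2*c^3*e^2*w + (1)*C*S^2*c^3*w^2 + (3)*C*c*e + (-1)*C*c*e*sn^2 +
      (-2)*C*c*e*w + (1)*C*c*e^2*w + (1)*C*c^3 + (-2)*C*c^3*e*w + (-1)*C*c^3*e^2*w +
      (-1)*C*c^3*w + (-1)*C*c^3*w^2 + (-1)*C^2*S*c^2*e*w + (-2)*C^2*S*c^2*w^2 + (1)*C^2*c*e +
      (-1)*C^2*c*e*w + (-1)*C^2*c*w + (1)*C^2*c*w^2 + (-1)*C^2*c^3*e*w + (-2)*C^2*c^3*w +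
      (1)*C^2*c^3*w^2 + (1)*C^3*c*w^2 + (1)*C^3*c^3*w^2 + (-1)*S*c^2*e + (1)*S*c^2*e*w +
      (-1)*S*c^2*e^2 + (-1)*S*e + (1)*S*e^2 + (-1)*S^2*c*e + (1)*S^2*c*e*w + (-1)*S^2*c*e^2*w +
      (1)*S^2*c^3*e*w + (1)*S^2*c^3*e^2*w + (-1)*S^2*c^3*w + (1)*S^2*c^3*w^2 + (1)*S^3*c^2*e*w +
      (1)*c*e + (-1)*c*e*w + (-1)*c*e^2*sn^2 + (1)*c*e^2*w + (1)*c^3*e + (-1)*c^3*e*w +
      (-1)*c^3*e^2*w + (1)*c^3*w + (-1)*c^3*w^2)) * h1
    + (E * ((1)*C*S*e^2 + (1)*C*c*e + (1)*C^2*S*e + (-1)*C^2*c*e^2 + (-1)*C^3*c*e + (-1)*S*e +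
      (1)*S*e^2 + (1)*c*e^2)) * h2
    + (E * ((2)*C*S*c^2*e + (2)*C*S*c^2*w + (1)*C*c*e + (1)*C*c^3 + (1)*C*c^3*e + (2)*C^2*S*c^2 +
      (2)*C^2*S*c^2*e + (-1)*C^2*c*e + (1)*C^2*c*e^2 + (-1)*C^2*c*w + (-1)*C^2*c^3*e +
      (-1)*C^2*c^3*e^2 + (-2)*C^2*c^3*w + (-2)*C^3*S*c^2*w + (-1)*C^3*c + (-1)*C^3*c*e +
      (-1)*C^3*c^3 + (-1)*C^3*c^3*e + (1)*C^4*c*w + (1)*C^4*c^3*w + (-1)*S*c^2*e + (1)*c*e +
      (-1)*c*e^2 + (1)*c^3*e + (1)*c^3*e^2 + (1)*c^3*w)) * h3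

/-- `w(t) = 1 / (1 + cosh t)`. -/
def wInv888 (t : ℝ) : ℝ := (1 + Real.cosh t)⁻¹

theorem one_add_cosh_pos888 (t : ℝ) : 0 < 1 + Real.cosh t := by
  have := Real.cosh_pos t; linarith

theorem wInv_rel888 (t : ℝ) : Real.cosh t * wInv888 t = 1 - wInv888 t := by
  unfold wInv888
  have := (one_add_cosh_pos888 t).ne'
  field_simp
  ring

theorem wInv_hasDerivAt888 (t : ℝ) :
    HasDerivAt wInv888 (-(Real.sinh t * wInv888 t ^ 2)) t := by
  have h1 : HasDerivAt (fun t => 1 + Real.cosh t) (Real.sinh t) t :=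
    (Real.hasDerivAt_cosh t).const_add 1
  have h2 := h1.inv (one_add_cosh_pos888 t).ne'
  refine h2.congr_deriv ?_
  unfold wInv888
  have := (one_add_cosh_pos888 t).ne'
  field_simp

/-- `tanh (t/2) = sinh t / (1 + cosh t)`. -/
def tH888 (t : ℝ) : ℝ := Real.sinh t * wInv888 t

theorem tH_hasDerivAt888 (t : ℝ) : HasDerivAt tH888 (wInv888 t) t := by
  have h := (Real.hasDerivAt_sinh t).mul (wInv_hasDerivAt888 t)
  refine h.congr_deriv ?_
  have r1 := Real.cosh_sq t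
  have r3 := wInv_rel888 t
  have e1 : Real.sinh t ^ 2 = Real.cosh t ^ 2 - 1 := by linarith
  linear_combination (-(wInv888 t ^ 2)) * e1 + (wInv888 t - Real.cosh t * wInv888 t) * r3

theorem wInv_cont888 : Continuous wInv888 := by
  unfold wInv888
  exact Continuous.inv₀ (by fun_prop) (fun t => (one_add_cosh_pos888 t).ne')

theorem tH_cont888 : Continuous tH888 := by
  unfold tH888
  exact Real.continuous_sinh.mul wInv_cont888

/-- The factor `1 - cos φ tanh(t/2)` and its `t`-derivatives. -/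
def s1g888 (t φ : ℝ) : ℝ := 1 - Real.cos φ * tH888 t

/-- First derivative. -/
def s1g1_888 (t φ : ℝ) : ℝ := -(Real.cos φ * wInv888 t)

/-- Second derivative. -/
def s1g2_888 (t φ : ℝ) : ℝ := Real.cos φ * (Real.sinh t * wInv888 t ^ 2)

theorem s1g_hasDerivAt888 (t φ : ℝ) : HasDerivAt (fun t => s1g888 t φ) (s1g1_888 t φ) t := by
  have := ((tH_hasDerivAt888 t).const_mul (Real.cos φ)).const_sub 1
  exact this

theorem s1g1_hasDerivAt888 (t φ : ℝ) :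
    HasDerivAt (fun t => s1g1_888 t φ) (s1g2_888 t φ) t := by
  have := ((wInv_hasDerivAt888 t).const_mul (Real.cos φ)).neg
  refine this.congr_deriv ?_
  unfold s1g2_888
  ring

theorem s1g_cont888 : Continuous (fun p : ℝ × ℝ => s1g888 p.1 p.2) := by
  unfold s1g888
  exact continuous_const.sub ((Real.continuous_cos.comp continuous_snd).mul
    (tH_cont888.comp continuous_fst))

theorem s1g1_cont888 : Continuous (fun p : ℝ × ℝ => s1g1_888 p.1 p.2) := by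
  unfold s1g1_888
  exact ((Real.continuous_cos.comp continuous_snd).mul
    (wInv_cont888.comp continuous_fst)).neg

theorem s1g2_cont888 : Continuous (fun p : ℝ × ℝ => s1g2_888 p.1 p.2) := by
  unfold s1g2_888
  exact (Real.continuous_cos.comp continuous_snd).mul
    ((Real.continuous_sinh.comp continuous_fst).mul
      ((wInv_cont888.comp continuous_fst).pow 2))

/-- The integrand of weight `±1`. -/
def s1h888 (e : ℂ) (t φ : ℝ) : ℂ := ((s1g888 t φ : ℝ) : ℂ) * s0h888 e t φ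

/-- First `t`-derivative. -/
def s1h1_888 (e : ℂ) (t φ : ℝ) : ℂ :=
  ((s1g1_888 t φ : ℝ) : ℂ) * s0h888 e t φ + ((s1g888 t φ : ℝ) : ℂ) * s0h1_888 e t φ

/-- Second `t`-derivative. -/
def s1h2_888 (e : ℂ) (t φ : ℝ) : ℂ :=
  ((s1g2_888 t φ : ℝ) : ℂ) * s0h888 e t φ + ((s1g1_888 t φ : ℝ) : ℂ) * s0h1_888 e t φ
    + (((s1g1_888 t φ : ℝ) : ℂ) * s0h1_888 e t φ + ((s1g888 t φ : ℝ) : ℂ) * s0h2_888 e t φ)

/-- The `φ`-potential. -/
def s1Psi888 (e : ℂ) (t φ : ℝ) : ℂ :=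
  ((Real.sin φ : ℝ) : ℂ) * (-((Real.cosh t : ℝ) : ℂ) * pw888 e (eta888 t φ)
    - e * (1 + ((eta888 t φ : ℝ) : ℂ)) * pw888 (e - 1) (eta888 t φ))

/-- Its `φ`-derivative. -/
def s1Psi'888 (e : ℂ) (t φ : ℝ) : ℂ :=
  ((Real.cos φ : ℝ) : ℂ) * (-((Real.cosh t : ℝ) : ℂ) * pw888 e (eta888 t φ)
      - e * (1 + ((eta888 t φ : ℝ) : ℂ)) * pw888 (e - 1) (eta888 t φ))
    + ((Real.sin φ : ℝ) : ℂ) * (-((Real.cosh t : ℝ) : ℂ)
        * (e * pw888 (e - 1) (eta888 t φ) * ((Real.sin φ * Real.sinh t : ℝ) : ℂ))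
      - e * (((Real.sin φ * Real.sinh t : ℝ) : ℂ) * pw888 (e - 1) (eta888 t φ)
        + (1 + ((eta888 t φ : ℝ) : ℂ))
          * ((e - 1) * pw888 (e - 1 - 1) (eta888 t φ)
            * ((Real.sin φ * Real.sinh t : ℝ) : ℂ))))

theorem s1h_hasDerivAt888 (e : ℂ) (t φ : ℝ) :
    HasDerivAt (fun t => s1h888 e t φ) (s1h1_888 e t φ) t := by
  have hg : HasDerivAt (fun t => ((s1g888 t φ : ℝ) : ℂ)) ((s1g1_888 t φ : ℝ) : ℂ) t :=
    (s1g_hasDerivAt888 t φ).ofReal_comp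
  exact hg.mul (s0h_hasDerivAt888 e t φ)

theorem s1h1_hasDerivAt888 (e : ℂ) (t φ : ℝ) :
    HasDerivAt (fun t => s1h1_888 e t φ) (s1h2_888 e t φ) t := by
  have hg : HasDerivAt (fun t => ((s1g888 t φ : ℝ) : ℂ)) ((s1g1_888 t φ : ℝ) : ℂ) t :=
    (s1g_hasDerivAt888 t φ).ofReal_comp
  have hg1 : HasDerivAt (fun t => ((s1g1_888 t φ : ℝ) : ℂ)) ((s1g2_888 t φ : ℝ) : ℂ) t :=
    (s1g1_hasDerivAt888 t φ).ofReal_comp
  exact (hg1.mul (s0h_hasDerivAt888 e t φ)).add (hg.mul (s0h1_hasDerivAt888 e t φ))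

theorem s1Psi_hasDerivAt888 (e : ℂ) (t φ : ℝ) :
    HasDerivAt (fun φ => s1Psi888 e t φ) (s1Psi'888 e t φ) φ := by
  have hs : HasDerivAt (fun φ => ((Real.sin φ : ℝ) : ℂ)) ((Real.cos φ : ℝ) : ℂ) φ :=
    (Real.hasDerivAt_sin φ).ofReal_comp
  have hp0 := pw_hasDerivAt888 e (eta_hasDerivAt_phi888 t φ) (eta_pos888 t φ)
  have hp1 := pw_hasDerivAt888 (e - 1) (eta_hasDerivAt_phi888 t φ) (eta_pos888 t φ)
  have he : HasDerivAt (fun φ => 1 + ((eta888 t φ : ℝ) : ℂ))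
      ((Real.sin φ * Real.sinh t : ℝ) : ℂ) φ :=
    ((eta_hasDerivAt_phi888 t φ).ofReal_comp).const_add 1
  have hB := (hp0.const_mul (-((Real.cosh t : ℝ) : ℂ))).sub ((he.const_mul e).mul hp1)
  have := hs.mul hB
  refine this.congr_deriv ?_
  unfold s1Psi'888
  simp only [Pi.sub_apply, Pi.mul_apply]
  ring

theorem s1h_cont888 (e : ℂ) : Continuous (Function.uncurry (s1h888 e)) := by
  have : Function.uncurry (s1h888 e) = fun p : ℝ × ℝ =>
      ((s1g888 p.1 p.2 : ℝ) : ℂ) * Function.uncurry (s0h888 e) p := by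
    funext ⟨t, φ⟩; rfl
  rw [this]
  exact (Complex.continuous_ofReal.comp s1g_cont888).mul (s0h_cont888 e)

theorem s1h1_cont888 (e : ℂ) : Continuous (Function.uncurry (s1h1_888 e)) := by
  have : Function.uncurry (s1h1_888 e) = fun p : ℝ × ℝ =>
      ((s1g1_888 p.1 p.2 : ℝ) : ℂ) * Function.uncurry (s0h888 e) p
        + ((s1g888 p.1 p.2 : ℝ) : ℂ) * Function.uncurry (s0h1_888 e) p := by
    funext ⟨t, φ⟩; rfl
  rw [this]
  exact ((Complex.continuous_ofReal.comp s1g1_cont888).mul (s0h_cont888 e)).add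
    ((Complex.continuous_ofReal.comp s1g_cont888).mul (s0h1_cont888 e))

theorem s1h2_cont888 (e : ℂ) : Continuous (Function.uncurry (s1h2_888 e)) := by
  have : Function.uncurry (s1h2_888 e) = fun p : ℝ × ℝ =>
      ((s1g2_888 p.1 p.2 : ℝ) : ℂ) * Function.uncurry (s0h888 e) p
        + ((s1g1_888 p.1 p.2 : ℝ) : ℂ) * Function.uncurry (s0h1_888 e) p
        + (((s1g1_888 p.1 p.2 : ℝ) : ℂ) * Function.uncurry (s0h1_888 e) p
          + ((s1g888 p.1 p.2 : ℝ) : ℂ) * Function.uncurry (s0h2_888 e) p) := by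
    funext ⟨t, φ⟩; rfl
  rw [this]
  have a0 := Complex.continuous_ofReal.comp s1g_cont888
  have a1 := Complex.continuous_ofReal.comp s1g1_cont888
  have a2 := Complex.continuous_ofReal.comp s1g2_cont888
  exact ((a2.mul (s0h_cont888 e)).add (a1.mul (s0h1_cont888 e))).add
    ((a1.mul (s0h1_cont888 e)).add (a0.mul (s0h2_cont888 e)))

theorem s1Psi'_cont888 (e : ℂ) (t : ℝ) : Continuous (s1Psi'888 e t) := by
  have c0 : Continuous (fun φ : ℝ => eta888 t φ) := by unfold eta888; fun_prop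
  have p0 := pw_cont888 e c0 (fun φ => eta_pos888 t φ)
  have p1 := pw_cont888 (e - 1) c0 (fun φ => eta_pos888 t φ)
  have p2 := pw_cont888 (e - 1 - 1) c0 (fun φ => eta_pos888 t φ)
  have c3 : Continuous (fun φ : ℝ => ((Real.sin φ * Real.sinh t : ℝ) : ℂ)) :=
    Complex.continuous_ofReal.comp (by fun_prop)
  have c4 : Continuous (fun φ : ℝ => ((Real.sin φ : ℝ) : ℂ)) :=
    Complex.continuous_ofReal.comp (by fun_prop)
  have c5 : Continuous (fun φ : ℝ => ((Real.cos φ : ℝ) : ℂ)) :=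
    Complex.continuous_ofReal.comp (by fun_prop)
  have c6 : Continuous (fun φ : ℝ => (1 : ℂ) + ((eta888 t φ : ℝ) : ℂ)) :=
    continuous_const.add (Complex.continuous_ofReal.comp c0)
  unfold s1Psi'888
  exact (c5.mul ((continuous_const.mul p0).sub ((continuous_const.mul c6).mul p1))).add
    (c4.mul ((continuous_const.mul ((continuous_const.mul p1).mul c3)).sub
      (continuous_const.mul ((c3.mul p1).add (c6.mul ((continuous_const.mul p2).mul c3))))))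

theorem s1_id888 (n : ℤ) (hn : n ≠ 0) (e : ℂ) (t φ : ℝ) :
    ((wtA888 n t : ℝ) : ℂ) * s1h2_888 e t φ + ((wtA'888 n t : ℝ) : ℂ) * s1h1_888 e t φ
      = ((wtA888 n t : ℝ) : ℂ) * (e * (e + 2) * s1h888 e t φ) + s1Psi'888 e t φ := by
  have hA : wtA888 n t = Real.sinh t * (1 + Real.cosh t) := by simp [wtA888, hn]
  have hA' : wtA'888 n t
      = Real.cosh t * (1 + Real.cosh t) + Real.sinh t * Real.sinh t := by simp [wtA'888, hn]
  have hpos := eta_pos888 t φ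
  have e1 : pw888 (e - 1) (eta888 t φ)
      = ((eta888 t φ : ℝ) : ℂ) * pw888 (e - 1 - 1) (eta888 t φ) := by
    have := pw_succ888 (e - 1 - 1) hpos
    rwa [sub_add_cancel] at this
  have e0 : pw888 e (eta888 t φ)
      = ((eta888 t φ : ℝ) : ℂ) ^ 2 * pw888 (e - 1 - 1) (eta888 t φ) := by
    have := pw_succ888 (e - 1) hpos
    rw [sub_add_cancel] at this
    rw [this, e1]; ring
  have r1 : ((Real.sinh t : ℝ) : ℂ) ^ 2 = ((Real.cosh t : ℝ) : ℂ) ^ 2 - 1 := by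
    have := Real.cosh_sq t
    have h : Real.sinh t ^ 2 = Real.cosh t ^ 2 - 1 := by linarith
    exact_mod_cast h
  have r2 : ((Real.sin φ : ℝ) : ℂ) ^ 2 = 1 - ((Real.cos φ : ℝ) : ℂ) ^ 2 := by
    have := Real.sin_sq_add_cos_sq φ
    have h : Real.sin φ ^ 2 = 1 - Real.cos φ ^ 2 := by linarith
    exact_mod_cast h
  have r3 : ((Real.cosh t : ℝ) : ℂ) * ((wInv888 t : ℝ) : ℂ) = 1 - ((wInv888 t : ℝ) : ℂ) := by
    exact_mod_cast wInv_rel888 t
  have key := sph1_alg888 (Real.cosh t) (Real.sinh t) (wInv888 t) (Real.cos φ) (Real.sin φ) e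
    (pw888 (e - 1 - 1) (eta888 t φ)) r1 r2 r3
  unfold s1h2_888 s1h1_888 s1h888 s1Psi'888 s0h2_888 s0h1_888 s0h888
  rw [hA, hA', e0, e1]
  have c1 : ((eta888 t φ : ℝ) : ℂ)
      = ((Real.cosh t : ℝ) : ℂ) - ((Real.cos φ : ℝ) : ℂ) * ((Real.sinh t : ℝ) : ℂ) := by
    unfold eta888; push_cast; ring
  have c2 : ((etaT888 t φ : ℝ) : ℂ)
      = ((Real.sinh t : ℝ) : ℂ) - ((Real.cos φ : ℝ) : ℂ) * ((Real.cosh t : ℝ) : ℂ) := by
    unfold etaT888; push_cast; ring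
  have c3 : ((Real.sin φ * Real.sinh t : ℝ) : ℂ)
      = ((Real.sin φ : ℝ) : ℂ) * ((Real.sinh t : ℝ) : ℂ) := by push_cast; ring
  have c4 : ((s1g888 t φ : ℝ) : ℂ)
      = 1 - ((Real.cos φ : ℝ) : ℂ) * (((Real.sinh t : ℝ) : ℂ) * ((wInv888 t : ℝ) : ℂ)) := by
    unfold s1g888 tH888; push_cast; ring
  have c5 : ((s1g1_888 t φ : ℝ) : ℂ)
      = -(((Real.cos φ : ℝ) : ℂ) * ((wInv888 t : ℝ) : ℂ)) := by
    unfold s1g1_888; push_cast; ring
  have c6 : ((s1g2_888 t φ : ℝ) : ℂ)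
      = ((Real.cos φ : ℝ) : ℂ) * (((Real.sinh t : ℝ) : ℂ) * ((wInv888 t : ℝ) : ℂ) ^ 2) := by
    unfold s1g2_888; push_cast; ring
  have c7 : ((Real.sinh t * (1 + Real.cosh t) : ℝ) : ℂ)
      = ((Real.sinh t : ℝ) : ℂ) * (1 + ((Real.cosh t : ℝ) : ℂ)) := by push_cast; ring
  have c8 : ((Real.cosh t * (1 + Real.cosh t) + Real.sinh t * Real.sinh t : ℝ) : ℂ)
      = ((Real.cosh t : ℝ) : ℂ) * (1 + ((Real.cosh t : ℝ) : ℂ))
        + ((Real.sinh t : ℝ) : ℂ) * ((Real.sinh t : ℝ) : ℂ) := by push_cast; ring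
  rw [c1, c2, c3, c4, c5, c6, c7, c8]
  exact key

/-- The normalised spherical function of weight `±1` (exponent `e = -s - 1`). -/
def ps1_888 (e : ℂ) (t : ℝ) : ℂ :=
  ((1 / (2 * Real.pi) : ℝ) : ℂ) * ∫ φ in (0:ℝ)..(2 * Real.pi), s1h888 e t φ

theorem ps1_cont888 (e : ℂ) : Continuous (ps1_888 e) :=
  continuous_const.mul (cont_pint888 (s1h_cont888 e) 0 (2 * Real.pi))

theorem sph1_volterra888 (n : ℤ) (hn : n ≠ 0) (e : ℂ) (T : ℝ) (hT : 0 ≤ T) :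
    ps1_888 e T = 1 + e * (e + 2) * gL888 n (ps1_888 e) T := by
  have hk : Continuous (Function.uncurry (fun t φ => e * (e + 2) * s1h888 e t φ)) := by
    have := (s1h_cont888 e)
    exact continuous_const.mul this
  have hper : ∀ t, s1Psi888 e t (2 * Real.pi) = s1Psi888 e t 0 := by
    intro t; simp [s1Psi888]
  have main := avg_volterra888 n (h := s1h888 e) (h1 := s1h1_888 e) (h2 := s1h2_888 e)
    (k := fun t φ => e * (e + 2) * s1h888 e t φ) (Ψ := s1Psi888 e) (Ψ' := s1Psi'888 e)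
    (s1h_hasDerivAt888 e) (s1h1_hasDerivAt888 e) (s1h_cont888 e) (s1h1_cont888 e)
    (s1h2_cont888 e) hk (s1Psi_hasDerivAt888 e) (s1Psi'_cont888 e) hper (s1_id888 n hn e) T hT
  have h0 : (∫ φ in (0:ℝ)..(2 * Real.pi), s1h888 e 0 φ) = ((2 * Real.pi : ℝ) : ℂ) := by
    have : ∀ φ, s1h888 e 0 φ = 1 := fun φ => by
      unfold s1h888 s0h888 s1g888 tH888
      rw [eta_zero888, pw_at_one888]
      simp
    simp only [this]
    simp
  have hg : (fun q => ∫ φ in (0:ℝ)..(2 * Real.pi), e * (e + 2) * s1h888 e q φ)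
      = fun q => (e * (e + 2) * ((2 * Real.pi : ℝ) : ℂ)) * ps1_888 e q := by
    funext q
    rw [intervalIntegral.integral_const_mul]
    unfold ps1_888
    have hpi : ((2 * Real.pi : ℝ) : ℂ) ≠ 0 := by
      exact_mod_cast (by positivity : (2 * Real.pi : ℝ) ≠ 0)
    push_cast
    push_cast at hpi
    field_simp
  rw [hg, gL_const_mul888, h0] at main
  have e2 : ps1_888 e T
      = ((1 / (2 * Real.pi) : ℝ) : ℂ) * ∫ φ in (0:ℝ)..(2 * Real.pi), s1h888 e T φ := rfl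
  rw [e2, main]
  have hpi : ((2 * Real.pi : ℝ) : ℂ) ≠ 0 := by
    exact_mod_cast (by positivity : (2 * Real.pi : ℝ) ≠ 0)
  push_cast
  push_cast at hpi
  field_simp

end Fermat.Agent.LT.T6.H888

end
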