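import Mathlib
import Fermat.Agent.LT.T6.H888.Sph1

/-!
# Row LT, tower T6, leaf T6.22.D (helper888): `sphVolterraC888 : SphVolterraC888`
-/

set_option autoImplicit false

open MeasureTheory Set

noncomputable section

namespace Fermat.Agent.LT.T6.H888

open Fermat.Agent.LT.T6

theorem sqrt_cosh_sq_sub888 {t : ℝ} (ht : 0 ≤ t) :
    Real.sqrt (Real.cosh t ^ 2 - 1) = Real.sinh t := by
  have h : Real.cosh t ^ 2 - 1 = Real.sinh t ^ 2 := by
    have := Real.cosh_sq t; linarith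
  rw [h, Real.sqrt_sq (Real.sinh_nonneg_iff.mpr ht)]

theorem cosh_half888 (t : ℝ) : Real.cosh t = 2 * Real.cosh (t / 2) ^ 2 - 1 := by
  have h1 := Real.cosh_two_mul (t / 2)
  have h2 := Real.cosh_sq (t / 2)
  have e : 2 * (t / 2) = t := by ring
  rw [e] at h1
  linarith

theorem sinh_half888 (t : ℝ) : Real.sinh t = 2 * Real.sinh (t / 2) * Real.cosh (t / 2) := by
  have h1 := Real.sinh_two_mul (t / 2)
  have e : 2 * (t / 2) = t := by ring
  rw [e] at h1
  exact h1

theorem sqrt_half_add888 (t : ℝ) :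
    Real.sqrt ((Real.cosh t + 1) / 2) = Real.cosh (t / 2) := by
  have h : (Real.cosh t + 1) / 2 = Real.cosh (t / 2) ^ 2 := by
    rw [cosh_half888 t]; ring
  rw [h, Real.sqrt_sq (Real.cosh_pos _).le]

theorem sqrt_half_sub888 {t : ℝ} (ht : 0 ≤ t) :
    Real.sqrt ((Real.cosh t - 1) / 2) = Real.sinh (t / 2) := by
  have h : (Real.cosh t - 1) / 2 = Real.sinh (t / 2) ^ 2 := by
    have := Real.cosh_sq (t / 2)
    rw [cosh_half888 t]; linarith
  rw [h, Real.sqrt_sq (Real.sinh_nonneg_iff.mpr (by linarith))]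

theorem cosh_half_mul_tH888 (t : ℝ) : Real.cosh (t / 2) * tH888 t = Real.sinh (t / 2) := by
  unfold tH888 wInv888
  have hc := Real.cosh_pos (t / 2)
  have e : 1 + Real.cosh t = 2 * Real.cosh (t / 2) ^ 2 := by rw [cosh_half888 t]; ring
  rw [e, sinh_half888 t]
  field_simp

theorem sphR0_eq888 (s : ℂ) {t : ℝ} (ht : 0 ≤ t) :
    sphR0 s (Real.cosh t) = ps0_888 (-s - 1 / 2) t := by
  unfold sphR0 ps0_888
  congr 1
  apply intervalIntegral.integral_congr
  intro u _
  simp only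
  rw [sqrt_cosh_sq_sub888 ht]
  exact pw_eq_cpow888 _ (eta_pos888 t u)

theorem sphR1_eq888 (s : ℂ) {t : ℝ} (ht : 0 ≤ t) :
    sphR1 s (Real.cosh t) = ((Real.cosh (t / 2) : ℝ) : ℂ) * ps1_888 (-s - 1) t := by
  unfold sphR1 ps1_888
  have e0 : ((Real.cosh (t / 2) : ℝ) : ℂ) * (((1 / (2 * Real.pi) : ℝ) : ℂ)
        * ∫ φ in (0:ℝ)..(2 * Real.pi), s1h888 (-s - 1) t φ)
      = ((1 / (2 * Real.pi) : ℝ) : ℂ) * ∫ φ in (0:ℝ)..(2 * Real.pi),
          ((Real.cosh (t / 2) : ℝ) : ℂ) * s1h888 (-s - 1) t φ := by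
    rw [intervalIntegral.integral_const_mul]; ring
  rw [e0]
  congr 1
  apply intervalIntegral.integral_congr
  intro u _
  simp only
  rw [sqrt_cosh_sq_sub888 ht, sqrt_half_add888, sqrt_half_sub888 ht]
  have e1 : ((Real.cosh t - Real.cos u * Real.sinh t : ℝ) : ℂ) ^ (-s - 1)
      = pw888 (-s - 1) (eta888 t u) := pw_eq_cpow888 _ (eta_pos888 t u)
  rw [e1]
  unfold s1h888 s0h888 s1g888
  rw [← mul_assoc]
  congr 1
  rw [← Complex.ofReal_mul]
  congr 1
  rw [mul_sub, mul_one, mul_left_comm, cosh_half_mul_tH888]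

/-- **Leaf T6.22.D.** -/
theorem sphVolterraC888 : SphVolterraC888 := by
  intro n _ s
  by_cases h0 : n = 0
  · refine ⟨ps0_888 (-s - 1 / 2), (ps0_cont888 _).continuousOn, ?_, ?_⟩
    · intro t ht
      have e1 : sphRad n s (Real.cosh t) = sphR0 s (Real.cosh t) := by simp [sphRad, h0]
      have e2 : nrm888 n t = 1 := by simp [nrm888, h0]
      rw [e1, e2, sphR0_eq888 s ht.le]
      simp
    · intro t ht
      have e3 : lam888 n s = (-s - 1 / 2) * ((-s - 1 / 2) + 1) := by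
        simp only [lam888, h0, if_true]; ring
      rw [e3, h0]
      exact sph0_volterra888 _ t ht
  · refine ⟨ps1_888 (-s - 1), (ps1_cont888 _).continuousOn, ?_, ?_⟩
    · intro t ht
      have e1 : sphRad n s (Real.cosh t) = sphR1 s (Real.cosh t) := by simp [sphRad, h0]
      have e2 : nrm888 n t = Real.cosh (t / 2) := by simp [nrm888, h0]
      rw [e1, e2, sphR1_eq888 s ht.le]
    · intro t ht
      have e3 : lam888 n s = (-s - 1) * ((-s - 1) + 2) := by
        simp only [lam888, h0, if_false]; ring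
      rw [e3]
      exact sph1_volterra888 n h0 _ t ht

end Fermat.Agent.LT.T6.H888

end
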