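import Mathlib
import Fermat.Agent.LT.T6.H888.SphVolterra
import Fermat.Agent.LT.T6.H683.DarbouxSpec

/-!
# Row LT, tower T6, leaf T6.22.B.1 `DbSmoothC683` (helper888, spare): common facts

`rho888 ≥ 1`, derivatives of `rho888`, the jet `(F, F', F'')` composed with `rho888`,
`tanh (u/2) = tH888 u`.
-/

set_option autoImplicit false

open MeasureTheory Set

noncomputable section

namespace Fermat.Agent.LT.T6.H888

open Fermat.Agent.LT.T6.H683

/-- `∂ρ/∂u`. -/
def rhoU888 (t u φ : ℝ) : ℝ :=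
  Real.cosh t * Real.sinh u + Real.sinh t * Real.cosh u * Real.cos φ

/-- `∂ρ/∂φ`. -/
def rhoP888 (t u φ : ℝ) : ℝ := -(Real.sinh t * Real.sinh u * Real.sin φ)

theorem rho_ge_one888 (t u φ : ℝ) : 1 ≤ rho888 t u φ := by
  unfold rho888
  have h1 := Real.one_le_cosh (t + u)
  have h2 := Real.one_le_cosh (t - u)
  rw [Real.cosh_add] at h1
  rw [Real.cosh_sub] at h2
  have h3 := Real.neg_one_le_cos φ
  have h4 := Real.cos_le_one φ
  nlinarith [mul_nonneg (by linarith : (0:ℝ) ≤ 1 + Real.cos φ)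
      (by linarith : (0:ℝ) ≤ Real.cosh t * Real.cosh u + Real.sinh t * Real.sinh u - 1),
    mul_nonneg (by linarith : (0:ℝ) ≤ 1 - Real.cos φ)
      (by linarith : (0:ℝ) ≤ Real.cosh t * Real.cosh u - Real.sinh t * Real.sinh u - 1)]

theorem rho_pos888 (t u φ : ℝ) : 0 < rho888 t u φ :=
  lt_of_lt_of_le one_pos (rho_ge_one888 t u φ)

theorem rho_at_zero888 (t φ : ℝ) : rho888 t 0 φ = Real.cosh t := by simp [rho888]

theorem rho_zero_left888 (u φ : ℝ) : rho888 0 u φ = Real.cosh u := by simp [rho888]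

theorem rho_hasDerivAt888 (t u φ : ℝ) :
    HasDerivAt (fun u => rho888 t u φ) (rhoU888 t u φ) u := by
  unfold rho888 rhoU888
  have := ((Real.hasDerivAt_cosh u).const_mul (Real.cosh t)).add
    (((Real.hasDerivAt_sinh u).const_mul (Real.sinh t)).mul_const (Real.cos φ))
  exact this

theorem rhoU_hasDerivAt888 (t u φ : ℝ) :
    HasDerivAt (fun u => rhoU888 t u φ) (rho888 t u φ) u := by
  unfold rho888 rhoU888
  have := ((Real.hasDerivAt_sinh u).const_mul (Real.cosh t)).add
    (((Real.hasDerivAt_cosh u).const_mul (Real.sinh t)).mul_const (Real.cos φ))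
  exact this

theorem rho_hasDerivAt_phi888 (t u φ : ℝ) :
    HasDerivAt (fun φ => rho888 t u φ) (rhoP888 t u φ) φ := by
  unfold rho888 rhoP888
  have := ((Real.hasDerivAt_cos φ).const_mul (Real.sinh t * Real.sinh u)).const_add
    (Real.cosh t * Real.cosh u)
  refine this.congr_deriv ?_
  ring

theorem rho_cont888 (t : ℝ) : Continuous (fun p : ℝ × ℝ => rho888 t p.1 p.2) := by
  unfold rho888; fun_prop

theorem rhoU_cont888 (t : ℝ) : Continuous (fun p : ℝ × ℝ => rhoU888 t p.1 p.2) := by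
  unfold rhoU888; fun_prop

theorem rhoP_cont888 (t : ℝ) : Continuous (fun p : ℝ × ℝ => rhoP888 t p.1 p.2) := by
  unfold rhoP888; fun_prop

/-- A function which is continuous on `(0, ∞)`, composed with `ρ`, is jointly continuous. -/
theorem comp_rho_cont888 {G : ℝ → ℝ} (hG : ContinuousOn G (Ioi 0)) (t : ℝ) :
    Continuous (fun p : ℝ × ℝ => G (rho888 t p.1 p.2)) :=
  hG.comp_continuous (rho_cont888 t) (fun p => rho_pos888 t p.1 p.2)

theorem comp_rho_cont_phi888 {G : ℝ → ℝ} (hG : ContinuousOn G (Ioi 0)) (t u : ℝ) :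
    Continuous (fun φ : ℝ => G (rho888 t u φ)) :=
  (comp_rho_cont888 hG t).comp (continuous_const.prodMk continuous_id)

theorem contOn_of_hasDerivAt888 {G G' : ℝ → ℝ} (h : ∀ x : ℝ, 0 < x → HasDerivAt G (G' x) x) :
    ContinuousOn G (Ioi 0) :=
  fun x hx => (h x hx).continuousAt.continuousWithinAt

theorem tanh_half888 (u : ℝ) : Real.tanh (u / 2) = tH888 u := by
  rw [Real.tanh_eq_sinh_div_cosh, ← cosh_half_mul_tH888 u]
  have := (Real.cosh_pos (u / 2)).ne'
  field_simp

theorem tH_zero888 : tH888 0 = 0 := by simp [tH888]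

theorem tH_rel1_888 (t : ℝ) : Real.cosh t * tH888 t = Real.sinh t - tH888 t := by
  unfold tH888
  have := wInv_rel888 t
  linear_combination (Real.sinh t) * this

theorem tH_rel2_888 (t : ℝ) : Real.sinh t * tH888 t = Real.cosh t - 1 := by
  unfold tH888 wInv888
  have h := (one_add_cosh_pos888 t).ne'
  have r := Real.cosh_sq t
  field_simp
  linarith

theorem kerW_zero888 (t u φ : ℝ) : kerW888 0 t u φ = 1 := by simp [kerW888]

theorem kerW_ne888 {n : ℤ} (hn : n ≠ 0) (t u φ : ℝ) :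
    kerW888 n t u φ = 1 + tH888 t * tH888 u * Real.cos φ := by
  simp [kerW888, hn, tanh_half888]

theorem integral_cos_2pi888 : (∫ φ in (0:ℝ)..(2 * Real.pi), Real.cos φ) = 0 := by
  rw [integral_cos]; simp

end Fermat.Agent.LT.T6.H888

end
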