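import Mathlib
import Fermat.Agent.LT.T6.H888.DbCommon

/-!
# Row LT, tower T6, leaf T6.22.B.1 `DbSmoothC683` (helper888, spare): weight `0`

`b0_main888`: for a `C²` jet `(F, F', F'')` on `(0, ∞)` and all `t`, `U ≥ 0`,
`∫ F(ρ(t, U, φ)) dφ = ∫ F(ρ(t, 0, φ)) dφ + gL888 0 (q ↦ ∫ (L F)(ρ(t, q, φ)) dφ) U`.
-/

set_option autoImplicit false

open MeasureTheory Set

noncomputable section

namespace Fermat.Agent.LT.T6.H888

open Fermat.Agent.LT.T6.H683

/-- The algebraic identity (weight `0`); cofactors by polynomial division. -/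
theorem b0_alg888 (C S c sn a b F1 F2 : ℝ) (h1 : S ^ 2 = C ^ 2 - 1) (h2 : sn ^ 2 = 1 - c ^ 2)
    (h4 : b ^ 2 = a ^ 2 - 1) :
    S * (F2 * (a * S + b * C * c) * (a * S + b * C * c) + F1 * (a * C + b * S * c))
      + C * (F1 * (a * S + b * C * c))
    = S * (((a * C + b * S * c) ^ 2 - 1) * F2 + (2 * (a * C + b * S * c)) * F1)
      + (F2 * (-(b * S * sn)) * (b * sn) + F1 * (b * c)) := by
  linear_combination ((-1)*F1*b*c + F2*S*a^2 + (-1)*F2*S*b^2*c^2) * h1 + (F2*S*b^2) * h2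
    + (F2*S) * h4

/-- The integrand. -/
def b0h888 (F : ℝ → ℝ) (t u φ : ℝ) : ℂ := ((F (rho888 t u φ) : ℝ) : ℂ)

/-- First `u`-derivative. -/
def b0h1_888 (F' : ℝ → ℝ) (t u φ : ℝ) : ℂ :=
  ((F' (rho888 t u φ) * rhoU888 t u φ : ℝ) : ℂ)

/-- Second `u`-derivative. -/
def b0h2_888 (F' F'' : ℝ → ℝ) (t u φ : ℝ) : ℂ :=
  ((F'' (rho888 t u φ) * rhoU888 t u φ * rhoU888 t u φ
    + F' (rho888 t u φ) * rho888 t u φ : ℝ) : ℂ)

/-- The right-hand side. -/
def b0k888 (F' F'' : ℝ → ℝ) (t u φ : ℝ) : ℂ := ((lop683 0 F' F'' (rho888 t u φ) : ℝ) : ℂ)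

/-- The `φ`-potential. -/
def b0Psi888 (F' : ℝ → ℝ) (t u φ : ℝ) : ℂ :=
  ((F' (rho888 t u φ) * (Real.sinh t * Real.sin φ) : ℝ) : ℂ)

/-- Its `φ`-derivative. -/
def b0Psi'888 (F' F'' : ℝ → ℝ) (t u φ : ℝ) : ℂ :=
  ((F'' (rho888 t u φ) * rhoP888 t u φ * (Real.sinh t * Real.sin φ)
    + F' (rho888 t u φ) * (Real.sinh t * Real.cos φ) : ℝ) : ℂ)

section
variable {F F' F'' : ℝ → ℝ} (hF : ∀ x : ℝ, 0 < x → HasDerivAt F (F' x) x)
  (hF' : ∀ x : ℝ, 0 < x → HasDerivAt F' (F'' x) x) (hF'' : ContinuousOn F'' (Ioi 0))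
include hF

theorem b0h_hasDerivAt888 (t u φ : ℝ) :
    HasDerivAt (fun u => b0h888 F t u φ) (b0h1_888 F' t u φ) u :=
  ((hF _ (rho_pos888 t u φ)).comp u (rho_hasDerivAt888 t u φ)).ofReal_comp

theorem b0h_cont888 (t : ℝ) : Continuous (Function.uncurry (b0h888 F t)) := by
  have : Function.uncurry (b0h888 F t)
      = fun p : ℝ × ℝ => ((F (rho888 t p.1 p.2) : ℝ) : ℂ) := by
    funext ⟨u, φ⟩; rfl
  rw [this]
  exact Complex.continuous_ofReal.comp (comp_rho_cont888 (contOn_of_hasDerivAt888 hF) t)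

omit hF
include hF'

theorem b0h1_hasDerivAt888 (t u φ : ℝ) :
    HasDerivAt (fun u => b0h1_888 F' t u φ) (b0h2_888 F' F'' t u φ) u :=
  (((hF' _ (rho_pos888 t u φ)).comp u (rho_hasDerivAt888 t u φ)).mul
    (rhoU_hasDerivAt888 t u φ)).ofReal_comp

theorem b0Psi_hasDerivAt888 (t u φ : ℝ) :
    HasDerivAt (fun φ => b0Psi888 F' t u φ) (b0Psi'888 F' F'' t u φ) φ :=
  (((hF' _ (rho_pos888 t u φ)).comp φ (rho_hasDerivAt_phi888 t u φ)).mul
    ((Real.hasDerivAt_sin φ).const_mul (Real.sinh t))).ofReal_comp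

theorem b0h1_cont888 (t : ℝ) : Continuous (Function.uncurry (b0h1_888 F' t)) := by
  have : Function.uncurry (b0h1_888 F' t)
      = fun p : ℝ × ℝ => ((F' (rho888 t p.1 p.2) * rhoU888 t p.1 p.2 : ℝ) : ℂ) := by
    funext ⟨u, φ⟩; rfl
  rw [this]
  exact Complex.continuous_ofReal.comp
    ((comp_rho_cont888 (contOn_of_hasDerivAt888 hF') t).mul (rhoU_cont888 t))

include hF''

theorem b0h2_cont888 (t : ℝ) : Continuous (Function.uncurry (b0h2_888 F' F'' t)) := by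
  have : Function.uncurry (b0h2_888 F' F'' t)
      = fun p : ℝ × ℝ => ((F'' (rho888 t p.1 p.2) * rhoU888 t p.1 p.2 * rhoU888 t p.1 p.2
          + F' (rho888 t p.1 p.2) * rho888 t p.1 p.2 : ℝ) : ℂ) := by
    funext ⟨u, φ⟩; rfl
  rw [this]
  exact Complex.continuous_ofReal.comp
    ((((comp_rho_cont888 hF'' t).mul (rhoU_cont888 t)).mul (rhoU_cont888 t)).add
      ((comp_rho_cont888 (contOn_of_hasDerivAt888 hF') t).mul (rho_cont888 t)))

theorem b0k_cont888 (t : ℝ) : Continuous (Function.uncurry (b0k888 F' F'' t)) := by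
  have : Function.uncurry (b0k888 F' F'' t)
      = fun p : ℝ × ℝ => (((rho888 t p.1 p.2 ^ 2 - 1) * F'' (rho888 t p.1 p.2)
          + (2 * rho888 t p.1 p.2) * F' (rho888 t p.1 p.2) : ℝ) : ℂ) := by
    funext ⟨u, φ⟩
    simp [b0k888, lop683]
  rw [this]
  exact Complex.continuous_ofReal.comp
    (((((rho_cont888 t).pow 2).sub continuous_const).mul (comp_rho_cont888 hF'' t)).add
      ((continuous_const.mul (rho_cont888 t)).mul
        (comp_rho_cont888 (contOn_of_hasDerivAt888 hF') t)))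

theorem b0Psi'_cont888 (t u : ℝ) : Continuous (b0Psi'888 F' F'' t u) := by
  have c1 := comp_rho_cont_phi888 hF'' t u
  have c2 := comp_rho_cont_phi888 (contOn_of_hasDerivAt888 hF') t u
  have c3 : Continuous (fun φ : ℝ => rhoP888 t u φ) := by unfold rhoP888; fun_prop
  unfold b0Psi'888
  exact Complex.continuous_ofReal.comp
    (((c1.mul c3).mul (continuous_const.mul Real.continuous_sin)).add
      (c2.mul (continuous_const.mul Real.continuous_cos)))

omit hF' hF''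

theorem b0_id888 (t u φ : ℝ) :
    ((wtA888 0 u : ℝ) : ℂ) * b0h2_888 F' F'' t u φ + ((wtA'888 0 u : ℝ) : ℂ) * b0h1_888 F' t u φ
      = ((wtA888 0 u : ℝ) : ℂ) * b0k888 F' F'' t u φ + b0Psi'888 F' F'' t u φ := by
  have hA : wtA888 0 u = Real.sinh u := by simp [wtA888]
  have hA' : wtA'888 0 u = Real.cosh u := by simp [wtA'888]
  have r1 : Real.sinh u ^ 2 = Real.cosh u ^ 2 - 1 := by have := Real.cosh_sq u; linarith
  have r2 : Real.sin φ ^ 2 = 1 - Real.cos φ ^ 2 := by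
    have := Real.sin_sq_add_cos_sq φ; linarith
  have r4 : Real.sinh t ^ 2 = Real.cosh t ^ 2 - 1 := by have := Real.cosh_sq t; linarith
  have key := b0_alg888 (Real.cosh u) (Real.sinh u) (Real.cos φ) (Real.sin φ) (Real.cosh t)
    (Real.sinh t) (F' (rho888 t u φ)) (F'' (rho888 t u φ)) r1 r2 r4
  unfold b0h2_888 b0h1_888 b0k888 b0Psi'888
  rw [hA, hA']
  have e : lop683 0 F' F'' (rho888 t u φ)
      = (rho888 t u φ ^ 2 - 1) * F'' (rho888 t u φ)
        + (2 * rho888 t u φ) * F' (rho888 t u φ) := by simp [lop683]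
  rw [e]
  have key' : Real.sinh u * (F'' (rho888 t u φ) * rhoU888 t u φ * rhoU888 t u φ
        + F' (rho888 t u φ) * rho888 t u φ)
      + Real.cosh u * (F' (rho888 t u φ) * rhoU888 t u φ)
      = Real.sinh u * ((rho888 t u φ ^ 2 - 1) * F'' (rho888 t u φ)
        + (2 * rho888 t u φ) * F' (rho888 t u φ))
        + (F'' (rho888 t u φ) * rhoP888 t u φ * (Real.sinh t * Real.sin φ)
          + F' (rho888 t u φ) * (Real.sinh t * Real.cos φ)) := by
    have e1 : rho888 t u φ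
        = Real.cosh t * Real.cosh u + Real.sinh t * Real.sinh u * Real.cos φ := rfl
    have e2 : rhoU888 t u φ
        = Real.cosh t * Real.sinh u + Real.sinh t * Real.cosh u * Real.cos φ := rfl
    have e3 : rhoP888 t u φ = -(Real.sinh t * Real.sinh u * Real.sin φ) := rfl
    generalize F' (rho888 t u φ) = F1 at key ⊢
    generalize F'' (rho888 t u φ) = F2 at key ⊢
    rw [e1, e2, e3]
    linear_combination key
  exact_mod_cast key'

include hF hF' hF''

/-- **The averaged identity, weight `0`.** -/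
theorem b0_main888 (t U : ℝ) (hU : 0 ≤ U) :
    (∫ φ in (0:ℝ)..(2 * Real.pi), b0h888 F t U φ)
      = (∫ φ in (0:ℝ)..(2 * Real.pi), b0h888 F t 0 φ)
        + gL888 0 (fun q => ∫ φ in (0:ℝ)..(2 * Real.pi), b0k888 F' F'' t q φ) U := by
  have hper : ∀ u, b0Psi888 F' t u (2 * Real.pi) = b0Psi888 F' t u 0 := by
    intro u; simp [b0Psi888]
  exact avg_volterra888 0 (h := b0h888 F t) (h1 := b0h1_888 F' t) (h2 := b0h2_888 F' F'' t)
    (k := b0k888 F' F'' t) (Ψ := b0Psi888 F' t) (Ψ' := b0Psi'888 F' F'' t)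
    (b0h_hasDerivAt888 hF t) (b0h1_hasDerivAt888 hF' t) (b0h_cont888 hF t)
    (b0h1_cont888 hF' t) (b0h2_cont888 hF' hF'' t) (b0k_cont888 hF' hF'' t)
    (b0Psi_hasDerivAt888 hF' t) (b0Psi'_cont888 hF' hF'' t) hper (b0_id888 t) U hU

end

end Fermat.Agent.LT.T6.H888

end
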