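import Mathlib
import Fermat.Agent.LT.T6.H888.DbSmooth0

/-!
# Row LT, tower T6, leaf T6.22.B.1 `DbSmoothC683` (helper888, spare): weight `±1`

`b1_main888`: for a `C²` jet `(F, F', F'')` on `(0, ∞)`, `n ≠ 0` and all `t`, `U ≥ 0`,
`∫ K F(ρ(t, U, φ)) dφ = ∫ K F(ρ(t, 0, φ)) dφ + gL888 n (q ↦ ∫ K (L F)(ρ(t, q, φ)) dφ) U`,
`K = 1 + tanh(t/2) tanh(u/2) cos φ`.
-/

set_option autoImplicit false

open MeasureTheory Set

noncomputable section

namespace Fermat.Agent.LT.T6.H888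

open Fermat.Agent.LT.T6.H683

/-- The algebraic identity (weight `±1`); cofactors by polynomial division. -/
theorem b1_alg888 (C S w c sn a b tau F0 F1 F2 : ℝ) (h1 : S ^ 2 = C ^ 2 - 1)
    (h2 : sn ^ 2 = 1 - c ^ 2) (h3 : C * w = 1 - w) (h4 : b ^ 2 = a ^ 2 - 1)
    (h5 : a * tau = b - tau) (h6 : b * tau = a - 1) :
    (S * (1 + C)) * ((tau * (-(S * w ^ 2)) * c) * F0 + (tau * w * c) * (F1 * (a * S + b * C * c))
        + ((tau * w * c) * (F1 * (a * S + b * C * c))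
          + (1 + tau * (S * w) * c) * (F2 * (a * S + b * C * c) * (a * S + b * C * c)
            + F1 * (a * C + b * S * c))))
      + (C * (1 + C) + S * S) * ((tau * w * c) * F0
        + (1 + tau * (S * w) * c) * (F1 * (a * S + b * C * c)))
    = (S * (1 + C)) * ((1 + tau * (S * w) * c) * (((a * C + b * S * c) ^ 2 - 1) * F2
        + (3 * (a * C + b * S * c) - 1) * F1))
      + ((1 + C) * b * ((-(tau * (S * w) * sn)) * F1 * sn
          + (1 + tau * (S * w) * c) * (F2 * (-(b * S * sn))) * sn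
          + (1 + tau * (S * w) * c) * F1 * c)
        + tau * C * (c * F0 + sn * (F1 * (-(b * S * sn))))) := by
  linear_combination
    ((-1)*C*F0*c*tau*w^2 + (-1)*C*F1*S*b*c^2*tau*w + (1)*C*F1*a*c*tau*w + (-1)*C*F1*b*c +
      (1)*C*F1*c*tau*w + (1)*C*F2*S*a^2 + (-1)*C*F2*S*b^2*c^2 + (1)*C*F2*S^2*a^2*c*tau*w +
      (-1)*C*F2*S^2*b^2*c^3*tau*w + (-1)*C*F2*a^2*c*tau*w + (1)*C*F2*b^2*c*sn^2*tau*w +
      (1)*C*F2*b^2*c^3*tau*w + (1)*C*F2*c*tau*w + (1)*F0*c*tau*w + (-1)*F0*c*tau*w^2 +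
      (1)*F1*S*a + (-2)*F1*S*b*c^2*tau*w + (1)*F1*S^2*a*c*tau*w + (1)*F1*a*c*tau*w + (-2)*F1*b*c +
      (1)*F1*c*tau*w + (1)*F2*S*a^2 + (-1)*F2*S*b^2*c^2 + (1)*F2*S^2*a^2*c*tau*w +
      (-1)*F2*S^2*b^2*c^3*tau*w + (-1)*F2*a^2*c*tau*w + (1)*F2*b^2*c*sn^2*tau*w +
      (1)*F2*b^2*c^3*tau*w + (1)*F2*c*tau*w) * h1
    + ((1)*C*F1*S*b*tau + (1)*C*F1*S*b*tau*w + (1)*C*F2*S*b^2 + (-1)*C*F2*b^2*c*tau*w +
      (1)*C^2*F2*b^2*c*tau*w + (1)*C^3*F2*b^2*c*tau*w + (1)*F1*S*b*tau*w + (1)*F2*S*b^2 +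
      (-1)*F2*b^2*c*tau*w) * h2
    + ((1)*C*F0*c*tau + (1)*C*F1*S*b*c^2*tau + (-1)*C^2*F0*c*tau*w + (1)*C^2*F1*a*c*tau +
      (1)*C^2*F1*c*tau + (-1)*C^2*F2*a^2*c*tau + (1)*C^2*F2*b^2*c*tau + (1)*C^2*F2*c*tau +
      (1)*F0*c*tau*w + (1)*F1*S*b*tau + (-1)*F1*a*c*tau + (-1)*F1*c*tau + (1)*F2*a^2*c*tau +
      (-1)*F2*b^2*c*tau + (-1)*F2*c*tau) * h3
    + ((1)*C*F2*S + (1)*C^2*F2*c*tau + (1)*F2*S + (-1)*F2*c*tau) * h4
    + ((1)*C^2*F1*c + (-1)*F1*c) * h5
    + ((1)*C*F1*S + (1)*F1*S) * h6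

/-- The kernel and its derivatives. -/
def bK888 (t u φ : ℝ) : ℝ := 1 + tH888 t * tH888 u * Real.cos φ

/-- `∂K/∂u`. -/
def bKu888 (t u φ : ℝ) : ℝ := tH888 t * wInv888 u * Real.cos φ

/-- `∂²K/∂u²`. -/
def bKuu888 (t u φ : ℝ) : ℝ := tH888 t * (-(Real.sinh u * wInv888 u ^ 2)) * Real.cos φ

/-- `∂K/∂φ`. -/
def bKp888 (t u φ : ℝ) : ℝ := -(tH888 t * tH888 u * Real.sin φ)

theorem bK_hasDerivAt888 (t u φ : ℝ) : HasDerivAt (fun u => bK888 t u φ) (bKu888 t u φ) u :=
  (((tH_hasDerivAt888 u).const_mul (tH888 t)).mul_const (Real.cos φ)).const_add 1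

theorem bKu_hasDerivAt888 (t u φ : ℝ) :
    HasDerivAt (fun u => bKu888 t u φ) (bKuu888 t u φ) u :=
  ((wInv_hasDerivAt888 u).const_mul (tH888 t)).mul_const (Real.cos φ)

theorem bK_hasDerivAt_phi888 (t u φ : ℝ) :
    HasDerivAt (fun φ => bK888 t u φ) (bKp888 t u φ) φ := by
  have := ((Real.hasDerivAt_cos φ).const_mul (tH888 t * tH888 u)).const_add 1
  refine this.congr_deriv ?_
  unfold bKp888
  ring

theorem bK_cont888 (t : ℝ) : Continuous (fun p : ℝ × ℝ => bK888 t p.1 p.2) := by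
  unfold bK888
  exact continuous_const.add ((continuous_const.mul (tH_cont888.comp continuous_fst)).mul
    (Real.continuous_cos.comp continuous_snd))

theorem bKu_cont888 (t : ℝ) : Continuous (fun p : ℝ × ℝ => bKu888 t p.1 p.2) := by
  unfold bKu888
  exact (continuous_const.mul (wInv_cont888.comp continuous_fst)).mul
    (Real.continuous_cos.comp continuous_snd)

theorem bKuu_cont888 (t : ℝ) : Continuous (fun p : ℝ × ℝ => bKuu888 t p.1 p.2) := by
  unfold bKuu888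
  exact (continuous_const.mul (((Real.continuous_sinh.comp continuous_fst).mul
    ((wInv_cont888.comp continuous_fst).pow 2)).neg)).mul
    (Real.continuous_cos.comp continuous_snd)

/-- The integrand. -/
def b1h888 (F : ℝ → ℝ) (t u φ : ℝ) : ℂ := ((bK888 t u φ * F (rho888 t u φ) : ℝ) : ℂ)

/-- First `u`-derivative. -/
def b1h1_888 (F F' : ℝ → ℝ) (t u φ : ℝ) : ℂ :=
  ((bKu888 t u φ * F (rho888 t u φ)
    + bK888 t u φ * (F' (rho888 t u φ) * rhoU888 t u φ) : ℝ) : ℂ)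

/-- Second `u`-derivative. -/
def b1h2_888 (F F' F'' : ℝ → ℝ) (t u φ : ℝ) : ℂ :=
  ((bKuu888 t u φ * F (rho888 t u φ) + bKu888 t u φ * (F' (rho888 t u φ) * rhoU888 t u φ)
    + (bKu888 t u φ * (F' (rho888 t u φ) * rhoU888 t u φ)
      + bK888 t u φ * (F'' (rho888 t u φ) * rhoU888 t u φ * rhoU888 t u φ
        + F' (rho888 t u φ) * rho888 t u φ)) : ℝ) : ℂ)

/-- The right-hand side. -/
def b1k888 (n : ℤ) (F' F'' : ℝ → ℝ) (t u φ : ℝ) : ℂ :=
  ((bK888 t u φ * lop683 n F' F'' (rho888 t u φ) : ℝ) : ℂ)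

/-- The `φ`-potential. -/
def b1Psi888 (F F' : ℝ → ℝ) (t u φ : ℝ) : ℂ :=
  (((1 + Real.cosh u) * Real.sinh t * (bK888 t u φ * F' (rho888 t u φ) * Real.sin φ)
    + tH888 t * Real.cosh u * (Real.sin φ * F (rho888 t u φ)) : ℝ) : ℂ)

/-- Its `φ`-derivative. -/
def b1Psi'888 (F F' F'' : ℝ → ℝ) (t u φ : ℝ) : ℂ :=
  (((1 + Real.cosh u) * Real.sinh t * (bKp888 t u φ * F' (rho888 t u φ) * Real.sin φ
        + bK888 t u φ * (F'' (rho888 t u φ) * rhoP888 t u φ) * Real.sin φ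
        + bK888 t u φ * F' (rho888 t u φ) * Real.cos φ)
    + tH888 t * Real.cosh u * (Real.cos φ * F (rho888 t u φ)
        + Real.sin φ * (F' (rho888 t u φ) * rhoP888 t u φ)) : ℝ) : ℂ)

section
variable {F F' F'' : ℝ → ℝ} (hF : ∀ x : ℝ, 0 < x → HasDerivAt F (F' x) x)
  (hF' : ∀ x : ℝ, 0 < x → HasDerivAt F' (F'' x) x) (hF'' : ContinuousOn F'' (Ioi 0))
include hF

theorem b1h_hasDerivAt888 (t u φ : ℝ) :
    HasDerivAt (fun u => b1h888 F t u φ) (b1h1_888 F F' t u φ) u :=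
  ((bK_hasDerivAt888 t u φ).mul
    ((hF _ (rho_pos888 t u φ)).comp u (rho_hasDerivAt888 t u φ))).ofReal_comp

theorem b1h_cont888 (t : ℝ) : Continuous (Function.uncurry (b1h888 F t)) := by
  have : Function.uncurry (b1h888 F t)
      = fun p : ℝ × ℝ => ((bK888 t p.1 p.2 * F (rho888 t p.1 p.2) : ℝ) : ℂ) := by
    funext ⟨u, φ⟩; rfl
  rw [this]
  exact Complex.continuous_ofReal.comp
    ((bK_cont888 t).mul (comp_rho_cont888 (contOn_of_hasDerivAt888 hF) t))

include hF'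

theorem b1h1_hasDerivAt888 (t u φ : ℝ) :
    HasDerivAt (fun u => b1h1_888 F F' t u φ) (b1h2_888 F F' F'' t u φ) u :=
  (((bKu_hasDerivAt888 t u φ).mul
      ((hF _ (rho_pos888 t u φ)).comp u (rho_hasDerivAt888 t u φ))).add
    ((bK_hasDerivAt888 t u φ).mul
      (((hF' _ (rho_pos888 t u φ)).comp u (rho_hasDerivAt888 t u φ)).mul
        (rhoU_hasDerivAt888 t u φ)))).ofReal_comp

theorem b1Psi_hasDerivAt888 (t u φ : ℝ) :
    HasDerivAt (fun φ => b1Psi888 F F' t u φ) (b1Psi'888 F F' F'' t u φ) φ := by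
  have hK := bK_hasDerivAt_phi888 t u φ
  have h1 : HasDerivAt (fun φ => F' (rho888 t u φ))
      (F'' (rho888 t u φ) * rhoP888 t u φ) φ :=
    (hF' _ (rho_pos888 t u φ)).comp φ (rho_hasDerivAt_phi888 t u φ)
  have h0 : HasDerivAt (fun φ => F (rho888 t u φ))
      (F' (rho888 t u φ) * rhoP888 t u φ) φ :=
    (hF _ (rho_pos888 t u φ)).comp φ (rho_hasDerivAt_phi888 t u φ)
  have hs := Real.hasDerivAt_sin φ
  have hKF : HasDerivAt (fun φ => bK888 t u φ * F' (rho888 t u φ))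
      (bKp888 t u φ * F' (rho888 t u φ)
        + bK888 t u φ * (F'' (rho888 t u φ) * rhoP888 t u φ)) φ := hK.mul h1
  have hKFs : HasDerivAt (fun φ => bK888 t u φ * F' (rho888 t u φ) * Real.sin φ)
      ((bKp888 t u φ * F' (rho888 t u φ)
        + bK888 t u φ * (F'' (rho888 t u φ) * rhoP888 t u φ)) * Real.sin φ
        + bK888 t u φ * F' (rho888 t u φ) * Real.cos φ) φ := hKF.mul hs
  have hsF : HasDerivAt (fun φ => Real.sin φ * F (rho888 t u φ))
      (Real.cos φ * F (rho888 t u φ)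
        + Real.sin φ * (F' (rho888 t u φ) * rhoP888 t u φ)) φ := hs.mul h0
  have hall : HasDerivAt (fun φ => (1 + Real.cosh u) * Real.sinh t
        * (bK888 t u φ * F' (rho888 t u φ) * Real.sin φ)
        + tH888 t * Real.cosh u * (Real.sin φ * F (rho888 t u φ)))
      ((1 + Real.cosh u) * Real.sinh t
        * ((bKp888 t u φ * F' (rho888 t u φ)
          + bK888 t u φ * (F'' (rho888 t u φ) * rhoP888 t u φ)) * Real.sin φ
          + bK888 t u φ * F' (rho888 t u φ) * Real.cos φ)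
        + tH888 t * Real.cosh u * (Real.cos φ * F (rho888 t u φ)
          + Real.sin φ * (F' (rho888 t u φ) * rhoP888 t u φ))) φ :=
    (hKFs.const_mul _).add (hsF.const_mul _)
  have := hall.ofReal_comp
  refine this.congr_deriv ?_
  unfold b1Psi'888
  congr 1
  ring

theorem b1h1_cont888 (t : ℝ) : Continuous (Function.uncurry (b1h1_888 F F' t)) := by
  have : Function.uncurry (b1h1_888 F F' t)
      = fun p : ℝ × ℝ => ((bKu888 t p.1 p.2 * F (rho888 t p.1 p.2)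
          + bK888 t p.1 p.2 * (F' (rho888 t p.1 p.2) * rhoU888 t p.1 p.2) : ℝ) : ℂ) := by
    funext ⟨u, φ⟩; rfl
  rw [this]
  exact Complex.continuous_ofReal.comp
    (((bKu_cont888 t).mul (comp_rho_cont888 (contOn_of_hasDerivAt888 hF) t)).add
      ((bK_cont888 t).mul
        ((comp_rho_cont888 (contOn_of_hasDerivAt888 hF') t).mul (rhoU_cont888 t))))

include hF''

theorem b1h2_cont888 (t : ℝ) : Continuous (Function.uncurry (b1h2_888 F F' F'' t)) := by
  have : Function.uncurry (b1h2_888 F F' F'' t)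
      = fun p : ℝ × ℝ => ((bKuu888 t p.1 p.2 * F (rho888 t p.1 p.2)
          + bKu888 t p.1 p.2 * (F' (rho888 t p.1 p.2) * rhoU888 t p.1 p.2)
          + (bKu888 t p.1 p.2 * (F' (rho888 t p.1 p.2) * rhoU888 t p.1 p.2)
            + bK888 t p.1 p.2 * (F'' (rho888 t p.1 p.2) * rhoU888 t p.1 p.2
                * rhoU888 t p.1 p.2
              + F' (rho888 t p.1 p.2) * rho888 t p.1 p.2)) : ℝ) : ℂ) := by
    funext ⟨u, φ⟩; rfl
  rw [this]
  have c0 := comp_rho_cont888 (contOn_of_hasDerivAt888 hF) t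
  have c1 := comp_rho_cont888 (contOn_of_hasDerivAt888 hF') t
  have c2 := comp_rho_cont888 hF'' t
  exact Complex.continuous_ofReal.comp
    ((((bKuu_cont888 t).mul c0).add ((bKu_cont888 t).mul (c1.mul (rhoU_cont888 t)))).add
      (((bKu_cont888 t).mul (c1.mul (rhoU_cont888 t))).add
        ((bK_cont888 t).mul
          (((c2.mul (rhoU_cont888 t)).mul (rhoU_cont888 t)).add (c1.mul (rho_cont888 t))))))

omit hF in
theorem b1k_cont888 (n : ℤ) (t : ℝ) : Continuous (Function.uncurry (b1k888 n F' F'' t)) := by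
  have : Function.uncurry (b1k888 n F' F'' t)
      = fun p : ℝ × ℝ => ((bK888 t p.1 p.2 * ((rho888 t p.1 p.2 ^ 2 - 1)
            * F'' (rho888 t p.1 p.2)
          + (if n = 0 then 2 * rho888 t p.1 p.2 else 3 * rho888 t p.1 p.2 - 1)
            * F' (rho888 t p.1 p.2)) : ℝ) : ℂ) := by
    funext ⟨u, φ⟩; rfl
  rw [this]
  have c1 := comp_rho_cont888 (contOn_of_hasDerivAt888 hF') t
  have c2 := comp_rho_cont888 hF'' t
  have c3 : Continuous (fun p : ℝ × ℝ =>
      (if n = 0 then 2 * rho888 t p.1 p.2 else 3 * rho888 t p.1 p.2 - 1)) := by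
    split_ifs
    · exact continuous_const.mul (rho_cont888 t)
    · exact (continuous_const.mul (rho_cont888 t)).sub continuous_const
  exact Complex.continuous_ofReal.comp
    ((bK_cont888 t).mul
      (((((rho_cont888 t).pow 2).sub continuous_const).mul c2).add (c3.mul c1)))

theorem b1Psi'_cont888 (t u : ℝ) : Continuous (b1Psi'888 F F' F'' t u) := by
  have c0 := comp_rho_cont_phi888 (contOn_of_hasDerivAt888 hF) t u
  have c1 := comp_rho_cont_phi888 (contOn_of_hasDerivAt888 hF') t u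
  have c2 := comp_rho_cont_phi888 hF'' t u
  have c3 : Continuous (fun φ : ℝ => rhoP888 t u φ) := by unfold rhoP888; fun_prop
  have c4 : Continuous (fun φ : ℝ => bK888 t u φ) := by unfold bK888; fun_prop
  have c5 : Continuous (fun φ : ℝ => bKp888 t u φ) := by unfold bKp888; fun_prop
  unfold b1Psi'888
  exact Complex.continuous_ofReal.comp
    ((continuous_const.mul ((((c5.mul c1).mul Real.continuous_sin).add
        ((c4.mul (c2.mul c3)).mul Real.continuous_sin)).add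
        ((c4.mul c1).mul Real.continuous_cos))).add
      (continuous_const.mul ((Real.continuous_cos.mul c0).add
        (Real.continuous_sin.mul (c1.mul c3)))))

omit hF hF' hF''

theorem b1_id888 (n : ℤ) (hn : n ≠ 0) (t u φ : ℝ) :
    ((wtA888 n u : ℝ) : ℂ) * b1h2_888 F F' F'' t u φ
        + ((wtA'888 n u : ℝ) : ℂ) * b1h1_888 F F' t u φ
      = ((wtA888 n u : ℝ) : ℂ) * b1k888 n F' F'' t u φ + b1Psi'888 F F' F'' t u φ := by
  have hA : wtA888 n u = Real.sinh u * (1 + Real.cosh u) := by simp [wtA888, hn]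
  have hA' : wtA'888 n u
      = Real.cosh u * (1 + Real.cosh u) + Real.sinh u * Real.sinh u := by simp [wtA'888, hn]
  have r1 : Real.sinh u ^ 2 = Real.cosh u ^ 2 - 1 := by have := Real.cosh_sq u; linarith
  have r2 : Real.sin φ ^ 2 = 1 - Real.cos φ ^ 2 := by
    have := Real.sin_sq_add_cos_sq φ; linarith
  have r3 := wInv_rel888 u
  have r4 : Real.sinh t ^ 2 = Real.cosh t ^ 2 - 1 := by have := Real.cosh_sq t; linarith
  have r5 := tH_rel1_888 t
  have r6 := tH_rel2_888 t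
  have key := b1_alg888 (Real.cosh u) (Real.sinh u) (wInv888 u) (Real.cos φ) (Real.sin φ)
    (Real.cosh t) (Real.sinh t) (tH888 t) (F (rho888 t u φ)) (F' (rho888 t u φ))
    (F'' (rho888 t u φ)) r1 r2 r3 r4 r5 r6
  unfold b1h2_888 b1h1_888 b1k888 b1Psi'888
  rw [hA, hA']
  have e : lop683 n F' F'' (rho888 t u φ)
      = (rho888 t u φ ^ 2 - 1) * F'' (rho888 t u φ)
        + (3 * rho888 t u φ - 1) * F' (rho888 t u φ) := by simp [lop683, hn]
  rw [e]
  have key' : (Real.sinh u * (1 + Real.cosh u))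
        * (bKuu888 t u φ * F (rho888 t u φ)
          + bKu888 t u φ * (F' (rho888 t u φ) * rhoU888 t u φ)
          + (bKu888 t u φ * (F' (rho888 t u φ) * rhoU888 t u φ)
            + bK888 t u φ * (F'' (rho888 t u φ) * rhoU888 t u φ * rhoU888 t u φ
              + F' (rho888 t u φ) * rho888 t u φ)))
      + (Real.cosh u * (1 + Real.cosh u) + Real.sinh u * Real.sinh u)
        * (bKu888 t u φ * F (rho888 t u φ)
          + bK888 t u φ * (F' (rho888 t u φ) * rhoU888 t u φ))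
      = (Real.sinh u * (1 + Real.cosh u))
        * (bK888 t u φ * ((rho888 t u φ ^ 2 - 1) * F'' (rho888 t u φ)
          + (3 * rho888 t u φ - 1) * F' (rho888 t u φ)))
        + ((1 + Real.cosh u) * Real.sinh t * (bKp888 t u φ * F' (rho888 t u φ) * Real.sin φ
            + bK888 t u φ * (F'' (rho888 t u φ) * rhoP888 t u φ) * Real.sin φ
            + bK888 t u φ * F' (rho888 t u φ) * Real.cos φ)
          + tH888 t * Real.cosh u * (Real.cos φ * F (rho888 t u φ)
            + Real.sin φ * (F' (rho888 t u φ) * rhoP888 t u φ))) := by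
    have e1 : rho888 t u φ
        = Real.cosh t * Real.cosh u + Real.sinh t * Real.sinh u * Real.cos φ := rfl
    have e2 : rhoU888 t u φ
        = Real.cosh t * Real.sinh u + Real.sinh t * Real.cosh u * Real.cos φ := rfl
    have e3 : rhoP888 t u φ = -(Real.sinh t * Real.sinh u * Real.sin φ) := rfl
    have e4 : bK888 t u φ = 1 + tH888 t * (Real.sinh u * wInv888 u) * Real.cos φ := rfl
    have e5 : bKu888 t u φ = tH888 t * wInv888 u * Real.cos φ := rfl
    have e6 : bKuu888 t u φ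
        = tH888 t * (-(Real.sinh u * wInv888 u ^ 2)) * Real.cos φ := rfl
    have e7 : bKp888 t u φ = -(tH888 t * (Real.sinh u * wInv888 u) * Real.sin φ) := rfl
    generalize F (rho888 t u φ) = F0 at key ⊢
    generalize F' (rho888 t u φ) = F1 at key ⊢
    generalize F'' (rho888 t u φ) = F2 at key ⊢
    rw [e1, e2, e3, e4, e5, e6, e7]
    linear_combination key
  exact_mod_cast key'

include hF hF' hF''

/-- **The averaged identity, weight `±1`.** -/
theorem b1_main888 (n : ℤ) (hn : n ≠ 0) (t U : ℝ) (hU : 0 ≤ U) :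
    (∫ φ in (0:ℝ)..(2 * Real.pi), b1h888 F t U φ)
      = (∫ φ in (0:ℝ)..(2 * Real.pi), b1h888 F t 0 φ)
        + gL888 n (fun q => ∫ φ in (0:ℝ)..(2 * Real.pi), b1k888 n F' F'' t q φ) U := by
  have hper : ∀ u, b1Psi888 F F' t u (2 * Real.pi) = b1Psi888 F F' t u 0 := by
    intro u; simp [b1Psi888]
  exact avg_volterra888 n (h := b1h888 F t) (h1 := b1h1_888 F F' t)
    (h2 := b1h2_888 F F' F'' t) (k := b1k888 n F' F'' t) (Ψ := b1Psi888 F F' t)
    (Ψ' := b1Psi'888 F F' F'' t)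
    (b1h_hasDerivAt888 hF t) (b1h1_hasDerivAt888 hF hF' t) (b1h_cont888 hF t)
    (b1h1_cont888 hF hF' t) (b1h2_cont888 hF hF' hF'' t) (b1k_cont888 hF' hF'' n t)
    (b1Psi_hasDerivAt888 hF hF' t) (b1Psi'_cont888 hF hF' hF'' t) hper (b1_id888 n hn t) U hU

end

end Fermat.Agent.LT.T6.H888

end
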