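import Mathlib
import Fermat.Agent.LT.T6.H888.DbSmooth1

/-!
# Row LT, tower T6, leaf T6.22.B.1 (helper888, spare): `dbSmoothC888 : H683.DbSmoothC683`
-/

set_option autoImplicit false

open MeasureTheory Set

noncomputable section

namespace Fermat.Agent.LT.T6.H888

open Fermat.Agent.LT.T6.H683

theorem two_pi_ne888 : ((2 * Real.pi : ℝ) : ℂ) ≠ 0 := by
  exact_mod_cast (by positivity : (2 * Real.pi : ℝ) ≠ 0)

theorem inv_two_pi_mul888 :
    ((1 / (2 * Real.pi) : ℝ) : ℂ) * ((2 * Real.pi : ℝ) : ℂ) = 1 := by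
  have h : (1 / (2 * Real.pi)) * (2 * Real.pi) = (1 : ℝ) := by
    have := Real.pi_pos.ne'
    field_simp
  exact_mod_cast h

theorem kerW_cont_phi888 (n : ℤ) (t u : ℝ) : Continuous (fun φ : ℝ => kerW888 n t u φ) := by
  by_cases h : n = 0
  · have : (fun φ : ℝ => kerW888 n t u φ) = fun _ => 1 := by funext φ; simp [kerW888, h]
    rw [this]; exact continuous_const
  · have : (fun φ : ℝ => kerW888 n t u φ)
        = fun φ => 1 + Real.tanh (t / 2) * Real.tanh (u / 2) * Real.cos φ := by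
      funext φ; simp [kerW888, h]
    rw [this]; fun_prop

theorem kerW_at_zero888 (n : ℤ) (t φ : ℝ) : kerW888 n t 0 φ = 1 := by
  by_cases h : n = 0
  · simp [kerW888, h]
  · simp [kerW888, h]

theorem kerW_zero_left888 (n : ℤ) (u φ : ℝ) : kerW888 n 0 u φ = 1 := by
  by_cases h : n = 0
  · simp [kerW888, h]
  · simp [kerW888, h]

theorem integral_kerW888 (n : ℤ) (t u : ℝ) :
    (∫ φ in (0:ℝ)..(2 * Real.pi), ((kerW888 n t u φ : ℝ) : ℂ)) = ((2 * Real.pi : ℝ) : ℂ) := by
  rw [intervalIntegral.integral_ofReal]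
  congr 1
  by_cases h : n = 0
  · have : (fun φ : ℝ => kerW888 n t u φ) = fun _ => 1 := by funext φ; simp [kerW888, h]
    simp only [this]
    simp
  · have : (fun φ : ℝ => kerW888 n t u φ)
        = fun φ => 1 + Real.tanh (t / 2) * Real.tanh (u / 2) * Real.cos φ := by
      funext φ; simp [kerW888, h]
    simp only [this]
    rw [intervalIntegral.integral_add intervalIntegrable_const
      ((by fun_prop : Continuous fun φ : ℝ =>
        Real.tanh (t / 2) * Real.tanh (u / 2) * Real.cos φ).intervalIntegrable _ _),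
      intervalIntegral.integral_const_mul, integral_cos_2pi888]
    simp

section
variable {F F' F'' : ℝ → ℝ} (hF : ∀ x : ℝ, 0 < x → HasDerivAt F (F' x) x)
  (hF' : ∀ x : ℝ, 0 < x → HasDerivAt F' (F'' x) x) (hF'' : ContinuousOn F'' (Ioi 0))
include hF hF' hF''

/-- The averaged identity, both weights. -/
theorem b_main888 (n : ℤ) (t U : ℝ) (hU : 0 ≤ U) :
    (∫ φ in (0:ℝ)..(2 * Real.pi), ((kerW888 n t U φ * F (rho888 t U φ) : ℝ) : ℂ))
      = ((2 * Real.pi : ℝ) : ℂ) * ((F (Real.cosh t) : ℝ) : ℂ)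
        + gL888 n (fun q => ∫ φ in (0:ℝ)..(2 * Real.pi),
            ((kerW888 n t q φ * lop683 n F' F'' (rho888 t q φ) : ℝ) : ℂ)) U := by
  by_cases h : n = 0
  · subst h
    have := b0_main888 hF hF' hF'' t U hU
    have e1 : ∀ u φ, ((kerW888 0 t u φ * F (rho888 t u φ) : ℝ) : ℂ) = b0h888 F t u φ := by
      intro u φ; simp [kerW888, b0h888]
    have e2 : ∀ u φ, ((kerW888 0 t u φ * lop683 0 F' F'' (rho888 t u φ) : ℝ) : ℂ)
        = b0k888 F' F'' t u φ := by
      intro u φ; simp [kerW888, b0k888]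
    simp only [e1, e2]
    rw [this]
    congr 1
    have : ∀ φ, b0h888 F t 0 φ = ((F (Real.cosh t) : ℝ) : ℂ) := by
      intro φ; simp [b0h888, rho_at_zero888]
    simp only [this]
    simp
  · have := b1_main888 hF hF' hF'' n h t U hU
    have e1 : ∀ u φ, ((kerW888 n t u φ * F (rho888 t u φ) : ℝ) : ℂ) = b1h888 F t u φ := by
      intro u φ; rw [kerW_ne888 h]; rfl
    have e2 : ∀ u φ, ((kerW888 n t u φ * lop683 n F' F'' (rho888 t u φ) : ℝ) : ℂ)
        = b1k888 n F' F'' t u φ := by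
      intro u φ; rw [kerW_ne888 h]; rfl
    simp only [e1, e2]
    rw [this]
    congr 1
    have : ∀ φ, b1h888 F t 0 φ = ((F (Real.cosh t) : ℝ) : ℂ) := by
      intro φ; simp [b1h888, bK888, tH_zero888, rho_at_zero888]
    simp only [this]
    simp

/-- The Green operator inverts `L`: `G ((L F) ∘ cosh) = F ∘ cosh - F 1`. -/
theorem gL_lop888 (n : ℤ) (d : ℝ) (hd : 0 ≤ d) :
    gL888 n (fun q => ((lop683 n F' F'' (Real.cosh q) : ℝ) : ℂ)) d
      = ((F (Real.cosh d) : ℝ) : ℂ) - ((F 1 : ℝ) : ℂ) := by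
  have h := b_main888 hF hF' hF'' n 0 d hd
  have e1 : ∀ φ, ((kerW888 n 0 d φ * F (rho888 0 d φ) : ℝ) : ℂ)
      = ((F (Real.cosh d) : ℝ) : ℂ) := by
    intro φ; rw [kerW_zero_left888, rho_zero_left888, one_mul]
  have e2 : (fun q => ∫ φ in (0:ℝ)..(2 * Real.pi),
      ((kerW888 n 0 q φ * lop683 n F' F'' (rho888 0 q φ) : ℝ) : ℂ))
      = fun q => ((2 * Real.pi : ℝ) : ℂ) * ((lop683 n F' F'' (Real.cosh q) : ℝ) : ℂ) := by
    funext q
    have : ∀ φ, ((kerW888 n 0 q φ * lop683 n F' F'' (rho888 0 q φ) : ℝ) : ℂ)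
        = ((lop683 n F' F'' (Real.cosh q) : ℝ) : ℂ) := by
      intro φ; rw [kerW_zero_left888, rho_zero_left888, one_mul]
    simp only [this]
    simp
  simp only [e1] at h
  rw [e2, gL_const_mul888, Real.cosh_zero] at h
  have h' : ((2 * Real.pi : ℝ) : ℂ) * ((F (Real.cosh d) : ℝ) : ℂ)
      = ((2 * Real.pi : ℝ) : ℂ) * ((F 1 : ℝ) : ℂ)
        + ((2 * Real.pi : ℝ) : ℂ)
          * gL888 n (fun q => ((lop683 n F' F'' (Real.cosh q) : ℝ) : ℂ)) d := by
    rw [← h]; simp
  have hpi := two_pi_ne888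
  have h3 : ((2 * Real.pi : ℝ) : ℂ)
      * (gL888 n (fun q => ((lop683 n F' F'' (Real.cosh q) : ℝ) : ℂ)) d
        - (((F (Real.cosh d) : ℝ) : ℂ) - ((F 1 : ℝ) : ℂ))) = 0 := by
    linear_combination -h'
  rcases mul_eq_zero.mp h3 with h4 | h4
  · exact absurd h4 hpi
  · exact sub_eq_zero.mp h4

/-- **Leaf T6.22.B.1** for a given jet. -/
theorem darbouxAt_smooth888 (n : ℤ) :
    DarbouxAt683 n (fun q => ((lop683 n F' F'' (Real.cosh q) : ℝ) : ℂ)) := by
  intro t u _ hu
  have hpi := two_pi_ne888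
  have cF := contOn_of_hasDerivAt888 hF
  have cF' := contOn_of_hasDerivAt888 hF'
  -- the left-hand side
  have hL : gT888 n (gL888 n (fun q => ((lop683 n F' F'' (Real.cosh q) : ℝ) : ℂ))) t u
      = ((1 / (2 * Real.pi) : ℝ) : ℂ)
          * (∫ φ in (0:ℝ)..(2 * Real.pi), ((kerW888 n t u φ * F (rho888 t u φ) : ℝ) : ℂ))
        - ((F 1 : ℝ) : ℂ) := by
    unfold gT888
    have e : ∀ φ, ((kerW888 n t u φ : ℝ) : ℂ)
        * gL888 n (fun q => ((lop683 n F' F'' (Real.cosh q) : ℝ) : ℂ))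
            (Real.arcosh (rho888 t u φ))
        = ((kerW888 n t u φ * F (rho888 t u φ) : ℝ) : ℂ)
          - ((F 1 : ℝ) : ℂ) * ((kerW888 n t u φ : ℝ) : ℂ) := by
      intro φ
      rw [gL_lop888 hF hF' hF'' n _ (Real.arcosh_nonneg (rho_ge_one888 t u φ)),
        Real.cosh_arcosh (rho_ge_one888 t u φ)]
      push_cast; ring
    simp only [e]
    rw [intervalIntegral.integral_sub, intervalIntegral.integral_const_mul, integral_kerW888]
    · linear_combination (-((F 1 : ℝ) : ℂ)) * inv_two_pi_mul888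
    · exact (Complex.continuous_ofReal.comp ((kerW_cont_phi888 n t u).mul
        (comp_rho_cont_phi888 cF t u))).intervalIntegrable _ _
    · exact (continuous_const.mul (Complex.continuous_ofReal.comp
        (kerW_cont_phi888 n t u))).intervalIntegrable _ _
  -- the translate of `g`
  have hT : (fun q => gT888 n (fun q => ((lop683 n F' F'' (Real.cosh q) : ℝ) : ℂ)) t q)
      = fun q => ((1 / (2 * Real.pi) : ℝ) : ℂ) * ∫ φ in (0:ℝ)..(2 * Real.pi),
          ((kerW888 n t q φ * lop683 n F' F'' (rho888 t q φ) : ℝ) : ℂ) := by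
    funext q
    unfold gT888
    congr 1
    apply intervalIntegral.integral_congr
    intro φ _
    simp only
    rw [Real.cosh_arcosh (rho_ge_one888 t q φ)]
    push_cast; ring
  rw [hL, hT, gL_const_mul888, gL_lop888 hF hF' hF'' n t (by linarith),
    b_main888 hF hF' hF'' n t u hu.le]
  linear_combination (((F (Real.cosh t) : ℝ) : ℂ)) * inv_two_pi_mul888

end

/-- **Leaf T6.22.B.1** (spare of helper888). -/
theorem dbSmoothC888 : DbSmoothC683 := by
  intro n _ F F' F'' hF hF' hF''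
  exact darbouxAt_smooth888 hF hF' hF'' n

end Fermat.Agent.LT.T6.H888

end
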