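import Mathlib
import Fermat.Agent.LT.T6.H888.GreenBasic

/-!
# Row LT, tower T6, leaf T6.22.I (helper888): the Green operator does not kill `f`, `f 0 = 1`

`gLInjC888 : GLInjC888`.
-/

set_option autoImplicit false

open MeasureTheory Set

noncomputable section

namespace Fermat.Agent.LT.T6.H888

theorem gLker_zero_of888 (n : ℤ) {f : ℝ → ℂ} (hf : Continuous f)
    (h : ∀ t, 0 < t → gL888 n f t = 0) : ∀ t, 0 < t → gLker888 n f t = 0 := by
  intro t₀ ht₀
  have hc : ContinuousOn (gLker888 n f) (Ioi 0) := gLker_contOn888 n hf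
  have h1 : HasDerivAt (fun u => ∫ r in (0:ℝ)..u, gLker888 n f r) (gLker888 n f t₀) t₀ :=
    intervalIntegral.integral_hasDerivAt_right (gLker_intble888 n hf ht₀.le)
      (hc.stronglyMeasurableAtFilter isOpen_Ioi t₀ ht₀)
      (hc.continuousAt (Ioi_mem_nhds ht₀))
  have h2 : (fun u => ∫ r in (0:ℝ)..u, gLker888 n f r) =ᶠ[nhds t₀] fun _ => (0 : ℂ) := by
    filter_upwards [Ioi_mem_nhds ht₀] with u hu
    exact h u hu
  exact (h1.congr_of_eventuallyEq h2.symm).unique (hasDerivAt_const t₀ (0 : ℂ))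

theorem gLin_zero_imp888 (n : ℤ) {f : ℝ → ℂ} (hf : Continuous f)
    (h : ∀ t, 0 < t → gLin888 n f t = 0) : ∀ t, 0 < t → f t = 0 := by
  intro t₀ ht₀
  have hc : Continuous (fun q => ((wtA888 n q : ℝ) : ℂ) * f q) :=
    (Complex.continuous_ofReal.comp (wtA_cont888 n)).mul hf
  have h1 : HasDerivAt (fun u => ∫ q in (0:ℝ)..u, ((wtA888 n q : ℝ) : ℂ) * f q)
      (((wtA888 n t₀ : ℝ) : ℂ) * f t₀) t₀ :=
    intervalIntegral.integral_hasDerivAt_right (hc.intervalIntegrable _ _)
      (hc.stronglyMeasurableAtFilter _ _) hc.continuousAt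
  have h2 : (fun u => ∫ q in (0:ℝ)..u, ((wtA888 n q : ℝ) : ℂ) * f q)
      =ᶠ[nhds t₀] fun _ => (0 : ℂ) := by
    filter_upwards [Ioi_mem_nhds ht₀] with u hu
    exact h u hu
  have h3 := (h1.congr_of_eventuallyEq h2.symm).unique (hasDerivAt_const t₀ (0 : ℂ))
  rcases mul_eq_zero.mp h3 with h4 | h4
  · exact absurd (Complex.ofReal_eq_zero.mp h4) (wtA_pos888 n ht₀).ne'
  · exact h4

/-- **Leaf T6.22.I.** -/
theorem gLInjC888 : GLInjC888 := by
  intro n _ f hf hf0
  by_contra hcon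
  push Not at hcon
  have hfc := extC_cont888 hf
  have h0 : ∀ t, 0 < t → gL888 n (extC888 f) t = 0 := by
    intro t ht
    rw [gL_ext888 n f ht.le]
    exact hcon t ht
  have h1 := gLker_zero_of888 n hfc h0
  have h2 : ∀ t, 0 < t → gLin888 n (extC888 f) t = 0 := by
    intro t ht
    have := h1 t ht
    unfold gLker888 at this
    rcases mul_eq_zero.mp this with h4 | h4
    · exact absurd (Complex.ofReal_eq_zero.mp h4) (inv_ne_zero (wtA_pos888 n ht).ne')
    · exact h4
  have h3 := gLin_zero_imp888 n hfc h2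
  have h4 : Ici (0:ℝ) ⊆ {x | extC888 f x = 0} := by
    rw [← closure_Ioi (0:ℝ)]
    exact closure_minimal (fun x hx => h3 x hx) (isClosed_eq hfc continuous_const)
  have h5 : extC888 f 0 = 0 := h4 (le_refl (0:ℝ))
  rw [extC_eq888 f (le_refl _), hf0] at h5
  exact one_ne_zero h5

end Fermat.Agent.LT.T6.H888

end
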