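import Mathlib
import Fermat.Agent.LT.T6.H888.GreenBasic

/-!
# Row LT, tower T6, leaf T6.22.E (helper888): uniqueness for the Volterra equation

`volterraUniqC888 : VolterraUniqC888`.
-/

set_option autoImplicit false

open MeasureTheory Set

noncomputable section

namespace Fermat.Agent.LT.T6.H888

/-- The iteration step. -/
theorem volterra_step888 (n : ℤ) (c : ℂ) {D : ℝ → ℂ} (_hD : Continuous D) {T : ℝ}
    (hV : ∀ t, 0 ≤ t → t ≤ T → D t = c * gL888 n D t) {K : ℝ} (hK : 0 ≤ K) (j : ℕ)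
    (hb : ∀ t, 0 ≤ t → t ≤ T → ‖D t‖ ≤ K * t ^ j) :
    ∀ t, 0 ≤ t → t ≤ T → ‖D t‖ ≤ ‖c‖ * K / (j + 2) * t ^ (j + 2) := by
  intro t ht htT
  rw [hV t ht htT, norm_mul, gL_eq888]
  have h1 : ‖∫ r in (0:ℝ)..t, gLker888 n D r‖ ≤ ∫ r in (0:ℝ)..t, K * r ^ (j + 1) := by
    apply intervalIntegral.norm_integral_le_of_norm_le ht
    · refine Filter.Eventually.of_forall (fun r hr => ?_)
      have h2 : ∀ q ∈ Ioc (0:ℝ) r, ‖D q‖ ≤ K * r ^ j := by
        intro q hq
        refine (hb q hq.1.le (hq.2.trans (hr.2.trans htT))).trans ?_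
        exact mul_le_mul_of_nonneg_left (pow_le_pow_left₀ hq.1.le hq.2 j) hK
      refine (gLker_bound888 n D hr.1 h2).trans_eq ?_
      ring
    · exact Continuous.intervalIntegrable (by fun_prop) _ _
  have h3 : (∫ r in (0:ℝ)..t, K * r ^ (j + 1)) = K * t ^ (j + 2) / (j + 2) := by
    rw [intervalIntegral.integral_const_mul, integral_pow]
    simp only [zero_pow (Nat.succ_ne_zero _), sub_zero]
    push_cast
    ring
  rw [h3] at h1
  calc ‖c‖ * ‖∫ r in (0:ℝ)..t, gLker888 n D r‖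
      ≤ ‖c‖ * (K * t ^ (j + 2) / (j + 2)) := mul_le_mul_of_nonneg_left h1 (norm_nonneg _)
    _ = ‖c‖ * K / (j + 2) * t ^ (j + 2) := by ring

theorem volterra_iter888 (n : ℤ) (c : ℂ) {D : ℝ → ℂ} (hD : Continuous D) {T : ℝ}
    (hV : ∀ t, 0 ≤ t → t ≤ T → D t = c * gL888 n D t) {M : ℝ} (hM : 0 ≤ M)
    (hb : ∀ t, 0 ≤ t → t ≤ T → ‖D t‖ ≤ M) (k : ℕ) :
    ∀ t, 0 ≤ t → t ≤ T → ‖D t‖ ≤ M * ((‖c‖ / 2) ^ k / k.factorial) * t ^ (2 * k) := by
  induction k with
  | zero => intro t ht htT; simpa using hb t ht htT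
  | succ k ih =>
    intro t ht htT
    have hK : 0 ≤ M * ((‖c‖ / 2) ^ k / k.factorial) := by positivity
    have h1 := volterra_step888 n c hD hV hK (2 * k) ih t ht htT
    refine h1.trans_eq ?_
    rw [Nat.factorial_succ]
    push_cast
    have hk : (k : ℝ) + 1 ≠ 0 := by positivity
    have hf : (k.factorial : ℝ) ≠ 0 := by positivity
    have e : 2 * (k + 1) = 2 * k + 2 := by ring
    rw [e]
    field_simp
    ring

theorem volterra_zero888 (n : ℤ) (c : ℂ) {D : ℝ → ℂ} (hD : Continuous D)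
    (hV : ∀ t, 0 ≤ t → D t = c * gL888 n D t) : ∀ t, 0 ≤ t → D t = 0 := by
  intro T hT
  obtain ⟨M, hM⟩ := (isCompact_Icc (a := (0:ℝ)) (b := T)).exists_bound_of_continuousOn
    hD.continuousOn
  have hM0 : 0 ≤ M := (norm_nonneg _).trans (hM 0 ⟨le_refl _, hT⟩)
  have h1 : ∀ k : ℕ, ‖D T‖ ≤ M * ((‖c‖ / 2 * T ^ 2) ^ k / k.factorial) := by
    intro k
    have := volterra_iter888 n c hD (T := T) (fun t ht _ => hV t ht) hM0
      (fun t ht htT => hM t ⟨ht, htT⟩) k T hT (le_refl _)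
    refine this.trans_eq ?_
    rw [mul_pow, ← pow_mul]
    ring
  have h2 : Filter.Tendsto (fun k : ℕ => M * ((‖c‖ / 2 * T ^ 2) ^ k / k.factorial))
      Filter.atTop (nhds 0) := by
    have := (FloorSemiring.tendsto_pow_div_factorial_atTop (‖c‖ / 2 * T ^ 2)).const_mul M
    simpa using this
  have h3 : ‖D T‖ ≤ 0 := ge_of_tendsto' h2 h1
  exact norm_le_zero_iff.mp h3

/-- **Leaf T6.22.E.** -/
theorem volterraUniqC888 : VolterraUniqC888 := by
  intro n _ c f g hf hg hVf hVg t ht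
  have hfc := extC_cont888 hf
  have hgc := extC_cont888 hg
  have hD : Continuous (fun q => extC888 f q - extC888 g q) := hfc.sub hgc
  have hV : ∀ t, 0 ≤ t →
      (fun q => extC888 f q - extC888 g q) t
        = c * gL888 n (fun q => extC888 f q - extC888 g q) t := by
    intro t ht
    simp only
    rw [gL_sub888 n hfc hgc ht, gL_ext888 n f ht, gL_ext888 n g ht, extC_eq888 f ht,
      extC_eq888 g ht, hVf t ht, hVg t ht]
    ring
  have h0 := volterra_zero888 n c hD hV t ht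
  simp only [extC_eq888 f ht, extC_eq888 g ht] at h0
  exact sub_eq_zero.mp h0

end Fermat.Agent.LT.T6.H888

end
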