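import Mathlib
import Fermat.Agent.LT.T6.H888.ArchClassTop
import Fermat.Agent.LT.T6.H888.GreenInj
import Fermat.Agent.LT.T6.H888.VolterraUniq
import Fermat.Agent.LT.T6.H888.DbSmooth
import Fermat.Agent.LT.T6.H263.MtCont
import Fermat.Agent.LT.T6.H497.ProdForm
import Fermat.Agent.LT.T6.H468.DbLin
import Fermat.Agent.LT.T6.H682.DbLim
import Fermat.Agent.LT.T6.H863.DbMono
import Fermat.Agent.LT.T6.H319.DbDense

/-!
# Row LT, tower T6, leaf T6.22 `ArchClassC` (helper888): CLOSED, no hypothesis

`archClassC_closed888 : Fermat.Agent.LT.T6.ArchClassC` (statement of `LT/T6/SpecArch.lean`,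
helper22), assembled from the leaves of the cut `H888/ArchClassSpec.lean`:

* (A1) `mtContC263` (helper263), (A2) `prodFormC497` (helper497; on `H162/SphAvgOf`,
  `H543/CartanR`, `H830/HCSpec`);
* (B) `darbouxC_of_leaves683` (helper683) on `dbSmoothC888` (helper888), `dbLinC468`
  (helper468), `dbLimC682` (helper682), `dbMonoC_863` (helper863), `dbDenseC319` (helper319);
* (I) `gLInjC888`, (D) `sphVolterraC888`, (E) `volterraUniqC888` (helper888);
* the top `archClassC888` (helper888).
-/

set_option autoImplicit false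

namespace Fermat.Agent.LT.T6.H888

/-- (B) The Darboux identity, closed. -/
theorem darbouxC_closed888 : DarbouxC888 :=
  Fermat.Agent.LT.T6.H683.darbouxC_of_leaves683 dbSmoothC888
    Fermat.Agent.LT.T6.H468.dbLinC468 Fermat.Agent.LT.T6.H682.dbLimC682
    Fermat.Agent.LT.T6.H863.dbMonoC_863 Fermat.Agent.LT.T6.H319.dbDenseC319

/-- **T6.22 `ArchClassC`, closed.** -/
theorem archClassC_closed888 : Fermat.Agent.LT.T6.ArchClassC :=
  archClassC888 Fermat.Agent.LT.T6.H263.mtContC263 Fermat.Agent.LT.T6.H497.prodFormC497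
    darbouxC_closed888 gLInjC888 sphVolterraC888 volterraUniqC888

end Fermat.Agent.LT.T6.H888
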